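import Fermat.Agent.Mazur.Two.Local
import Fermat.Agent.TW.LocalKummer
import Fermat.Agent.Galois.Decomposition
import Mathlib.FieldTheory.Galois.Infinite
import Mathlib.Tactic.FieldSimp

/-!
# The Frobenius trick

On inertia at `ℓ`, the Kummer class of a cocycle with values in roots of unity has a valuation
modulo `ℓ^R`, invariant under Frobenius. At `ℓ = 2`, if a Frobenius element `F` satisfies
`F² - T F + 2` on the quotient by the connected part and `F⁻¹` does so on the connected part, then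
`T² - 9` kills the valuations of the extension and `(T - 3)(T² - 9)` those of points.
-/

set_option autoImplicit false
set_option linter.style.haveILetI false

noncomputable section

namespace Fermat.Agent.Mazur.Two

open Descent FlatTangent

variable {ℓ : ℕ} [Fact ℓ.Prime]

theorem isClosed_inert : IsClosed ((inert ℓ : Subgroup Gal) : Set Gal) := Galois.isClosed_inertia _

/-- Hilbert 90 over the fixed field of inertia. -/
theorem exists_inert_root (f : Gal → Qb) (hf0 : ∀ s ∈ inert ℓ, f s ≠ 0)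
    (hf : ∀ s ∈ inert ℓ, ∀ t ∈ inert ℓ, f (s * t) = s (f t) * f s)
    (L : IntermediateField ℚ Qb) [FiniteDimensional ℚ L]
    (hc : ∀ g ∈ inert ℓ, ∀ s ∈ inert ℓ, s ∈ L.fixingSubgroup → f (g * s) = f g) :
    ∃ z : Qb, z ≠ 0 ∧ ∀ σ ∈ inert ℓ, σ z = f σ * z := by
  set K := IntermediateField.fixedField (inert ℓ) with hKdef
  have hK : K.fixingSubgroup = inert ℓ :=
    InfiniteGalois.fixingSubgroup_fixedField (⟨inert ℓ, isClosed_inert⟩ : ClosedSubgroup Gal)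
  let e : (Qb ≃ₐ[K] Qb) →* inert ℓ :=
    MonoidHom.mk' (fun σ => ⟨σ.restrictScalars ℚ, hK.le (fun x => σ.commutes x)⟩)
      fun a b => rfl
  haveI : Algebra.IsAlgebraic K Qb := Algebra.IsAlgebraic.tower_top (K := ℚ) _
  haveI : IsAlgClosure K Qb := ⟨inferInstance, inferInstance⟩
  haveI : IsGalois K Qb := inferInstance
  let E : IntermediateField K Qb := IntermediateField.adjoin K (L : Set Qb)
  haveI : FiniteDimensional K E := by
    obtain ⟨s, hs⟩ := IntermediateField.essFiniteType_iff.1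
      (Algebra.EssFiniteType.of_finiteType (R := ℚ) (S := L))
    have hFE : E = IntermediateField.adjoin K (s : Set Qb) := by
      refine le_antisymm (IntermediateField.adjoin_le_iff.2 fun x hx => ?_)
        (IntermediateField.adjoin.mono K _ _ (hs ▸ IntermediateField.subset_adjoin ℚ _))
      have hx' : x ∈ IntermediateField.adjoin ℚ (s : Set Qb) := by rw [hs]; exact hx
      have hle : IntermediateField.adjoin ℚ (s : Set Qb) ≤
          (IntermediateField.adjoin K (s : Set Qb)).restrictScalars ℚ :=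
        IntermediateField.adjoin_le_iff.2 (IntermediateField.subset_adjoin K _)
      exact hle hx'
    rw [hFE]
    exact IntermediateField.finiteDimensional_adjoin fun x _ => Algebra.IsIntegral.isIntegral x
  obtain ⟨b, hb0, hb⟩ := Fermat.Agent.TW.exists_eq_div_of_levelConstant_cocycle
    (fun σ => f (e σ : Gal)) (fun σ => hf0 _ (e σ).2)
    (fun σ τ => by rw [map_mul, Subgroup.coe_mul, hf _ (e σ).2 _ (e τ).2]; rfl) E
    (fun g s hs => by
      rw [map_mul, Subgroup.coe_mul, hc _ (e g).2 _ (e s).2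
        ((IntermediateField.mem_fixingSubgroup_iff _ _).2 fun x hx =>
          (IntermediateField.mem_fixingSubgroup_iff _ _).1 hs x
            (IntermediateField.subset_adjoin K _ hx))])
  refine ⟨b, hb0, fun σ hσ => ?_⟩
  let τ : Qb ≃ₐ[K] Qb := { (σ : Gal).toRingEquiv with commutes' := fun x => x.2 ⟨σ, hσ⟩ }
  have hes : (e τ : Gal) = σ := AlgEquiv.ext fun x => rfl
  have h1 := hb τ
  rw [hes] at h1
  rw [h1, div_mul_cancel₀ _ hb0]
  rfl

variable (ℓ) in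
/-- `f` is on inertia the Kummer cocycle of an element of valuation `a / ℓ^R`. -/
def KVal (R : ℕ) (f : Gal → Qb) (a : ℤ) : Prop :=
  ∃ z, VEQ ℓ ((a : ℝ) / (ℓ ^ R : ℕ)) z ∧ InU ℓ (z ^ ℓ ^ R) ∧ ∀ σ ∈ inert ℓ, σ z = f σ * z

namespace KVal

variable {R : ℕ} {f g : Gal → Qb} {a b : ℤ}

theorem exists_of_cocycle (hf0 : ∀ s ∈ inert ℓ, f s ^ ℓ ^ R = 1)
    (hf : ∀ s ∈ inert ℓ, ∀ t ∈ inert ℓ, f (s * t) = s (f t) * f s)
    (L : IntermediateField ℚ Qb) [FiniteDimensional ℚ L]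
    (hc : ∀ g ∈ inert ℓ, ∀ s ∈ inert ℓ, s ∈ L.fixingSubgroup → f (g * s) = f g) :
    ∃ a, KVal ℓ R f a := by
  have hN : ℓ ^ R ≠ 0 := pow_ne_zero R (Fact.out : ℓ.Prime).ne_zero
  obtain ⟨z, hz0, hz⟩ := exists_inert_root f
    (fun s hs h0 => by
      have := hf0 s hs
      rw [h0, zero_pow hN] at this
      exact zero_ne_one this) hf L hc
  have hU : InU ℓ (z ^ ℓ ^ R) := fun σ hσ => by
    rw [map_pow, hz σ hσ, mul_pow, hf0 σ hσ, one_mul]
  obtain ⟨m, hm⟩ := hU.exists_int (pow_ne_zero _ hz0)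
  refine ⟨m, z, VEQ.of_pow hN ?_, hU, hz⟩
  rwa [mul_div_cancel₀ _ (Nat.cast_ne_zero.mpr hN)]

theorem congr (hf : KVal ℓ R f a) (h : ∀ σ ∈ inert ℓ, f σ = g σ) : KVal ℓ R g a := by
  obtain ⟨z, hv, hU, hz⟩ := hf
  exact ⟨z, hv, hU, fun σ hσ => by rw [← h σ hσ]; exact hz σ hσ⟩

theorem mul (hf : KVal ℓ R f a) (hg : KVal ℓ R g b) : KVal ℓ R (fun σ => f σ * g σ) (a + b) := by
  obtain ⟨y, hy, hyU, hy'⟩ := hf
  obtain ⟨z, hz, hzU, hz'⟩ := hg
  refine ⟨y * z, by rw [Int.cast_add, add_div]; exact hy.mul hz, by rw [mul_pow]; exact hyU.mul hzU,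
    fun σ hσ => ?_⟩
  rw [map_mul, hy' σ hσ, hz' σ hσ]
  ring

theorem div (hf : KVal ℓ R f a) (hg : KVal ℓ R g b) : KVal ℓ R (fun σ => f σ / g σ) (a - b) := by
  obtain ⟨y, hy, hyU, hy'⟩ := hf
  obtain ⟨z, hz, hzU, hz'⟩ := hg
  refine ⟨y / z, by rw [Int.cast_sub, sub_div]; exact hy.div hz, by rw [div_pow]; exact hyU.div hzU,
    fun σ hσ => ?_⟩
  rw [map_div₀, hy' σ hσ, hz' σ hσ, mul_div_mul_comm]

theorem dec {F : Gal} (hF : F ∈ dec ℓ) (hn : ∀ σ ∈ inert ℓ, F⁻¹ * σ * F ∈ inert ℓ)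
    (hf : KVal ℓ R f a) : KVal ℓ R (fun σ => F (f (F⁻¹ * σ * F))) a := by
  obtain ⟨z, hv, hU, hz⟩ := hf
  have key : ∀ σ w, σ (F w) = F ((F⁻¹ * σ * F) w) := fun σ w => by
    rw [AlgEquiv.mul_apply, AlgEquiv.mul_apply, Galois.galQ_apply_inv]
  refine ⟨F z, hv.dec hF, fun σ hσ => ?_, fun σ hσ => ?_⟩
  · rw [← map_pow F, key, hU _ (hn σ hσ)]
  · rw [key, hz _ (hn σ hσ), map_mul]

theorem unique (hf : KVal ℓ R f a) (hg : KVal ℓ R f b) : ((ℓ ^ R : ℕ) : ℤ) ∣ a - b := by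
  have hN : ((ℓ ^ R : ℕ) : ℝ) ≠ 0 := Nat.cast_ne_zero.mpr (pow_ne_zero R (Fact.out : ℓ.Prime).ne_zero)
  obtain ⟨y, hy, -, hy'⟩ := hf
  obtain ⟨z, hz, -, hz'⟩ := hg
  have hU : InU ℓ (y / z) := fun σ hσ => by
    rw [map_div₀, hy' σ hσ, hz' σ hσ]
    refine mul_div_mul_left _ _ fun h0 => hy.ne_zero ?_
    have h1 := hy' σ hσ
    rw [h0, zero_mul] at h1
    exact (map_eq_zero σ).mp h1
  obtain ⟨m, hm⟩ := hU.exists_int (div_ne_zero hy.ne_zero hz.ne_zero)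
  refine ⟨m, ?_⟩
  have h2 := hm.unique (hy.div hz)
  rw [← sub_div, eq_div_iff hN] at h2
  have : (m : ℝ) * ((ℓ ^ R : ℕ) : ℝ) = ((a - b : ℤ) : ℝ) := by push_cast at h2 ⊢; exact h2
  rw [mul_comm] at this
  exact_mod_cast this.symm

theorem unitKummer (hf : KVal ℓ R f a) (ha : ((ℓ ^ R : ℕ) : ℤ) ∣ a) : UnitKummer ℓ f := by
  obtain ⟨z, hv, hU, hz⟩ := hf
  obtain ⟨j, rfl⟩ := ha
  have hN : ((ℓ ^ R : ℕ) : ℝ) ≠ 0 := Nat.cast_ne_zero.mpr (pow_ne_zero R (Fact.out : ℓ.Prime).ne_zero)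
  have hℓU : InU ℓ ((ℓ : Qb) ^ j) := (inU_natCast ℓ).zpow j
  refine ⟨z / (ℓ : Qb) ^ j, ⟨R, by rw [div_pow]; exact hU.div (hℓU.pow _), ?_⟩, fun σ hσ => ?_⟩
  · have h1 := hv.div ((veq_cast_self (p := ℓ)).zpow j)
    rwa [mul_one, show (((ℓ ^ R : ℕ) : ℤ) * j : ℤ) = ((ℓ ^ R : ℕ) : ℤ) * j from rfl, Int.cast_mul,
      Int.cast_natCast, mul_div_cancel_left₀ _ hN, sub_self] at h1
  · rw [map_div₀, hz σ hσ, hℓU σ hσ, mul_div_assoc]

theorem of_coboundary {w : Qb} (hw : w ^ ℓ ^ R = 1) (h : ∀ σ ∈ inert ℓ, σ w = f σ * w) :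
    KVal ℓ R f 0 := by
  refine ⟨w, ?_, by rw [hw]; exact inU_one, h⟩
  rw [Int.cast_zero, zero_div]
  exact veq_zero_of_pow_eq_one (pow_ne_zero R (Fact.out : ℓ.Prime).ne_zero) hw

end KVal

variable (ℓ) in
open Classical in
/-- The valuation modulo `ℓ^R` of a Kummer class. -/
def kv (R : ℕ) (f : Gal → Qb) : ZMod (ℓ ^ R) :=
  if h : ∃ a, KVal ℓ R f a then (h.choose : ZMod (ℓ ^ R)) else 0

theorem kv_eq {R : ℕ} {f : Gal → Qb} {a : ℤ} (h : KVal ℓ R f a) :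
    kv ℓ R f = (a : ZMod (ℓ ^ R)) := by
  rw [kv, dif_pos ⟨a, h⟩, eq_comm, ZMod.intCast_eq_intCast_iff_dvd_sub]
  exact (Exists.choose_spec (⟨a, h⟩ : ∃ a, KVal ℓ R f a)).unique h

theorem chVal_sub {M : Type} [AddCommGroup M] (φ : M →+ Additive Qbˣ) (a b : M) :
    chVal φ (a - b) = chVal φ a / chVal φ b := by
  rw [sub_eq_add_neg, chVal_add, chVal_neg, div_eq_mul_inv]

theorem chVal_nsmul {M : Type} [AddCommGroup M] (φ : M →+ Additive Qbˣ) (k : ℕ) (m : M) :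
    chVal φ (k • m) = chVal φ m ^ k := by
  simp [chVal, map_nsmul]

theorem exists_cycExp_pow (R : ℕ) (τ : Gal) :
    ∃ k : ℕ, ∀ ζ : Qb, ζ ^ ℓ ^ R = 1 → τ ζ = ζ ^ k := by
  haveI : NeZero (ℓ ^ R) := ⟨pow_ne_zero R (Fact.out : ℓ.Prime).ne_zero⟩
  obtain ⟨z, hz⟩ := HasEnoughRootsOfUnity.exists_primitiveRoot Qb (ℓ ^ R)
  obtain ⟨k, -, hk⟩ := hz.eq_pow_of_pow_eq_one (ξ := τ z)
    (by rw [← map_pow, hz.pow_eq_one, map_one])
  refine ⟨k, fun ζ hζ => ?_⟩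
  obtain ⟨i, -, rfl⟩ := hz.eq_pow_of_pow_eq_one hζ
  rw [map_pow, ← hk, ← pow_mul, ← pow_mul, mul_comm]

/-- A finite level of the connected-étale sequence at two: inertia is cyclotomic on `C` and trivial
modulo `C`; the Frobenius element `F` fixes the roots of unity of the level, satisfies
`F² - T F + 2` modulo `C`, and its inverse satisfies the same relation on `C`. -/
structure LocalData [Fact (Nat.Prime 2)] {M : Type} [AddCommGroup M]
    (ρ : Gal →* AddMonoid.End M) (C : AddSubgroup M) (F : Gal) (T : M →+ M) (R : ℕ) : Prop where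
  kill : ∀ m : M, 2 ^ R • m = 0
  level : ∃ E : IntermediateField ℚ Qb, FiniteDimensional ℚ E ∧ ∀ σ ∈ E.fixingSubgroup, ρ σ = 1
  unip : ∀ σ ∈ inert 2, ∀ m, ρ σ m - m ∈ C
  cyc : ∀ σ ∈ inert 2, ∀ x ∈ C, ∀ k : ℕ, (∀ ζ : Qb, ζ ^ 2 ^ R = 1 → σ ζ = ζ ^ k) → ρ σ x = k • x
  mem_dec : F ∈ dec 2
  frob_fix : ∀ ζ : Qb, ζ ^ 2 ^ R = 1 → F ζ = ζ
  comm : ∀ g m, T (ρ g m) = ρ g (T m)
  stab_T : ∀ x ∈ C, T x ∈ C
  stab : ∀ x ∈ C, ρ F⁻¹ x ∈ C
  onC : ∀ x ∈ C, ρ F⁻¹ (ρ F⁻¹ x) - T (ρ F⁻¹ x) + (x + x) = 0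
  onQuot : ∀ m, ρ F (ρ F m) - T (ρ F m) + (m + m) ∈ C

variable [Fact (Nat.Prime 2)]

namespace LocalData

variable {M : Type} [AddCommGroup M] {ρ : Gal →* AddMonoid.End M} {C : AddSubgroup M} {F : Gal}
  {T : M →+ M} {R : ℕ} (D : LocalData ρ C F T R)

include D

theorem conj_mem {σ : Gal} (hσ : σ ∈ inert 2) : F⁻¹ * σ * F ∈ inert 2 := by
  have := Galois.inertia_normal_in_decomposition (A := plc 2) hσ (inv_mem D.mem_dec)
  rwa [inv_inv] at this

theorem chVal_pow (φ : M →+ Additive Qbˣ) (m : M) : chVal φ m ^ 2 ^ R = 1 := by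
  rw [← chVal_nsmul, D.kill, chVal_zero]

theorem chVal_rho (φ : M →+ Additive Qbˣ) {σ : Gal} (hσ : σ ∈ inert 2) {x : M} (hx : x ∈ C) :
    chVal φ (ρ σ x) = σ (chVal φ x) := by
  obtain ⟨k, hk⟩ := exists_cycExp_pow (ℓ := 2) R σ
  rw [D.cyc σ hσ x hx k hk, chVal_nsmul, hk _ (D.chVal_pow φ x)]

omit D in
/-- A cocycle with values in `C` on inertia, of finite level. -/
def Adm (ρ : Gal →* AddMonoid.End M) (C : AddSubgroup M) (c : Gal → M) : Prop :=
  c ∈ Z1 ρ ∧ (∀ σ ∈ inert 2, c σ ∈ C) ∧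
    ∃ L : IntermediateField ℚ Qb, FiniteDimensional ℚ L ∧ ∀ σ ∈ L.fixingSubgroup, c σ = 0

theorem exists_kVal (φ : M →+ Additive Qbˣ) {c : Gal → M} (hc : Adm ρ C c) :
    ∃ a, KVal 2 R (fun σ => chVal φ (c σ)) a := by
  obtain ⟨hZ, hC, L, hL, hcL⟩ := hc
  exact KVal.exists_of_cocycle (fun s _ => D.chVal_pow φ _)
    (fun s hs t ht => by rw [hZ s t, chVal_add, D.chVal_rho φ hs (hC t ht), mul_comm]) L
    (fun g _ s _ hs => by rw [hZ g s, hcL s hs, map_zero, add_zero])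

theorem adm_dB (m : M) : Adm ρ C (dB ρ m) := by
  obtain ⟨E, hE, h1⟩ := D.level
  exact ⟨dB_mem_Z1 ρ m, fun σ hσ => D.unip σ hσ m, E, hE, fun σ hσ => by
    rw [dB_apply, h1 σ hσ]; exact sub_self m⟩

omit D in
theorem adm_comp {c : Gal → M} (hc : Adm ρ C c) (f : M →+ M) (hf : ∀ g m, f (ρ g m) = ρ g (f m))
    (hfC : ∀ x ∈ C, f x ∈ C) : Adm ρ C fun σ => f (c σ) := by
  obtain ⟨hZ, hC, L, hL, hcL⟩ := hc
  exact ⟨fun g h => by show f (c (g * h)) = _; rw [hZ g h, map_add, hf],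
    fun σ hσ => hfC _ (hC σ hσ), L, hL, fun σ hσ => by simp [hcL σ hσ]⟩

/-- The valuation attached to a character and a cocycle. -/
def val (_D : LocalData ρ C F T R) (φ : M →+ Additive Qbˣ) (c : Gal → M) : ZMod (2 ^ R) :=
  kv 2 R fun σ => chVal φ (c σ)

theorem val_congr {φ ψ : M →+ Additive Qbˣ} {c d : Gal → M} (hc : Adm ρ C c)
    (h : ∀ σ ∈ inert 2, chVal φ (c σ) = chVal ψ (d σ)) : D.val φ c = D.val ψ d := by
  obtain ⟨a, ha⟩ := D.exists_kVal φ hc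
  rw [val, val, kv_eq ha, kv_eq (ha.congr h)]

theorem val_add (φ : M →+ Additive Qbˣ) {c d : Gal → M} (hc : Adm ρ C c) (hd : Adm ρ C d) :
    D.val φ (fun σ => c σ + d σ) = D.val φ c + D.val φ d := by
  obtain ⟨a, ha⟩ := D.exists_kVal φ hc
  obtain ⟨b, hb⟩ := D.exists_kVal φ hd
  rw [val, val, val, kv_eq ha, kv_eq hb, ← Int.cast_add,
    kv_eq ((ha.mul hb).congr fun σ _ => (chVal_add φ _ _).symm)]

theorem val_sub (φ : M →+ Additive Qbˣ) {c d : Gal → M} (hc : Adm ρ C c) (hd : Adm ρ C d) :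
    D.val φ (fun σ => c σ - d σ) = D.val φ c - D.val φ d := by
  obtain ⟨a, ha⟩ := D.exists_kVal φ hc
  obtain ⟨b, hb⟩ := D.exists_kVal φ hd
  rw [val, val, val, kv_eq ha, kv_eq hb, ← Int.cast_sub,
    kv_eq ((ha.div hb).congr fun σ _ => (chVal_sub φ _ _).symm)]

/-- The valuation attached to a character and a point of the extension. -/
def ext (D : LocalData ρ C F T R) (φ : M →+ Additive Qbˣ) (m : M) : ZMod (2 ^ R) := D.val φ (dB ρ m)

theorem ext_add (φ : M →+ Additive Qbˣ) (m n : M) :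
    D.ext φ (m + n) = D.ext φ m + D.ext φ n := by
  rw [ext, ext, ext, map_add, ← D.val_add φ (D.adm_dB m) (D.adm_dB n)]
  rfl

theorem ext_sub (φ : M →+ Additive Qbˣ) (m n : M) :
    D.ext φ (m - n) = D.ext φ m - D.ext φ n := by
  rw [ext, ext, ext, map_sub, ← D.val_sub φ (D.adm_dB m) (D.adm_dB n)]
  rfl

theorem ext_eq_zero (φ : M →+ Additive Qbˣ) {e : M} (he : e ∈ C) : D.ext φ e = 0 := by
  have h : KVal 2 R (fun σ => chVal φ (dB ρ e σ)) 0 :=
    KVal.of_coboundary (D.chVal_pow φ e) fun σ hσ => by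
      rw [← chVal_add, dB_apply, sub_add_cancel, D.chVal_rho φ hσ he]
  rw [ext, val, kv_eq h, Int.cast_zero]

/-- Invariance of the valuation under Frobenius. -/
theorem val_transport (φ : M →+ Additive Qbˣ) {c : Gal → M} (hc : Adm ρ C c) :
    D.val φ c = D.val (φ.comp (ρ F⁻¹)) fun σ => c σ + dB ρ (c F) σ := by
  obtain ⟨a, ha⟩ := D.exists_kVal φ hc
  rw [val, val, kv_eq ha, kv_eq ((ha.dec D.mem_dec fun σ hσ => D.conj_mem hσ).congr fun σ hσ => ?_)]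
  have h2 : ρ F (c (F⁻¹ * σ * F)) = c σ + dB ρ (c F) σ := by
    have h3 := hc.1 F (F⁻¹ * σ * F)
    rw [show F * (F⁻¹ * σ * F) = σ * F by group, hc.1 σ F] at h3
    rw [dB_apply, ← add_sub_assoc, h3, add_sub_cancel_left]
  show F (chVal φ (c (F⁻¹ * σ * F))) = chVal φ (ρ F⁻¹ (c σ + dB ρ (c F) σ))
  rw [D.frob_fix _ (D.chVal_pow φ _), ← h2, ← rho_mul, inv_mul_cancel, rho_one]

theorem val_frobInv_sq (φ : M →+ Additive Qbˣ) {c : Gal → M} (hc : Adm ρ C c) :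
    D.val ((φ.comp (ρ F⁻¹)).comp (ρ F⁻¹)) c =
      D.val (φ.comp (ρ F⁻¹)) (fun σ => T (c σ)) - (D.val φ c + D.val φ c) := by
  obtain ⟨a, ha⟩ := D.exists_kVal (φ.comp (ρ F⁻¹)) (adm_comp hc T D.comm D.stab_T)
  obtain ⟨b, hb⟩ := D.exists_kVal φ hc
  refine (show D.val ((φ.comp (ρ F⁻¹)).comp (ρ F⁻¹)) c = ((a - (b + b) : ℤ) : ZMod (2 ^ R)) from
    kv_eq ((ha.div (hb.mul hb)).congr fun σ hσ => ?_)).trans ?_
  · show chVal φ (ρ F⁻¹ (T (c σ))) / (chVal φ (c σ) * chVal φ (c σ)) =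
      chVal φ (ρ F⁻¹ (ρ F⁻¹ (c σ)))
    rw [← chVal_add, ← chVal_sub, ← D.comm]
    congr 1
    have := D.onC (c σ) (hc.2.1 σ hσ)
    rw [sub_eq_iff_eq_add, eq_comm, ← sub_eq_zero, ← this]
    abel
  · rw [val, val, kv_eq ha, kv_eq hb]
    push_cast
    rfl

theorem val_comp_T (φ : M →+ Additive Qbˣ) (m : M) :
    D.val φ (fun σ => T (dB ρ m σ)) = D.ext φ (T m) := by
  rw [ext]
  exact congrArg (D.val φ) (funext fun σ => by simp only [dB_apply, map_sub, D.comm])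

/-- `T² - 9` kills the valuations of the extension. -/
theorem ext_sq_sub_nine (φ : M →+ Additive Qbˣ) (m : M) :
    D.ext φ (T (T m)) = 9 * D.ext φ m := by
  have htr : ∀ (ψ : M →+ Additive Qbˣ) (x : M),
      D.ext ψ x = D.ext (ψ.comp (ρ F⁻¹)) (ρ F x) := by
    intro ψ x
    rw [ext, ext, D.val_transport ψ (D.adm_dB x)]
    refine congrArg (D.val _) (funext fun σ => ?_)
    simp only [dB_apply, map_sub]
    abel
  set a := D.ext φ with ha
  have h1 : ∀ x, D.ext (φ.comp (ρ F⁻¹)) x = a (T x) - (a (ρ F x) + a (ρ F x)) := by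
    intro x
    rw [htr (φ.comp (ρ F⁻¹)) x, ha, ext, D.val_frobInv_sq φ (D.adm_dB _), D.val_comp_T, D.comm]
    exact congrArg (· - (D.ext φ (ρ F x) + D.ext φ (ρ F x))) (htr φ (T x)).symm
  have h2 : ∀ x, a (T (ρ F x)) = 3 * a x := by
    intro x
    have h3 := (htr φ x).trans (h1 _)
    rw [← ha] at h3
    have h4 : a (ρ F (ρ F x)) = a (T (ρ F x)) - (a x + a x) := by
      rw [ha, ← D.ext_add, ← D.ext_sub, ← sub_eq_zero, ← D.ext_sub]
      convert D.ext_eq_zero φ (D.onQuot x) using 2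
      abel
    rw [h4] at h3
    linear_combination h3
  have h5 : ∀ x, a (T x) = 3 * a (ρ F x) := by
    intro x
    have h6 := h2 (ρ F x)
    have h7 : a (T (ρ F (ρ F x))) = a (T (T (ρ F x))) - (a (T x) + a (T x)) := by
      rw [ha, ← D.ext_add, ← D.ext_sub, ← map_add, ← map_sub, ← sub_eq_zero, ← D.ext_sub,
        ← map_sub]
      convert D.ext_eq_zero φ (D.stab_T _ (D.onQuot x)) using 3
      abel
    rw [h7, show T (T (ρ F x)) = T (ρ F (T x)) by rw [D.comm], h2] at h6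
    linear_combination h6
  rw [h5, ← D.comm, h2]
  ring

/-- The operator killing the valuations of the extension. -/
def killExt (_D : LocalData ρ C F T R) : M →+ M :=
  T.comp T - (9 : ℕ) • AddMonoidHom.id M

theorem killExt_apply (m : M) : D.killExt m = T (T m) - 9 • m := rfl

theorem killExt_comm (g : Gal) (m : M) : D.killExt (ρ g m) = ρ g (D.killExt m) := by
  simp only [killExt_apply, D.comm, map_sub, map_nsmul]

theorem killExt_mem {x : M} (hx : x ∈ C) : D.killExt x ∈ C :=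
  C.sub_mem (D.stab_T _ (D.stab_T _ hx)) (C.nsmul_mem hx _)

theorem ext_killExt (φ : M →+ Additive Qbˣ) (m : M) : D.ext φ (D.killExt m) = 0 := by
  have hn : ∀ n : ℕ, D.ext φ (n • m) = n * D.ext φ m := by
    intro n
    induction n with
    | zero => rw [zero_nsmul, D.ext_eq_zero φ C.zero_mem, Nat.cast_zero, zero_mul]
    | succ n ih => rw [succ_nsmul, D.ext_add, ih, Nat.cast_succ, add_mul, one_mul]
  rw [killExt_apply, D.ext_sub, D.ext_sq_sub_nine, hn, Nat.cast_ofNat, sub_self]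

theorem unitKummer_of_val {φ : M →+ Additive Qbˣ} {c : Gal → M} (hc : Adm ρ C c)
    (h : D.val φ c = 0) : UnitKummer 2 fun σ => chVal φ (c σ) := by
  obtain ⟨a, ha⟩ := D.exists_kVal φ hc
  rw [val, kv_eq ha] at h
  exact ha.unitKummer ((ZMod.intCast_zmod_eq_zero_iff_dvd a _).mp h)

/-- `T² - 9` kills the valuations of the extension. -/
theorem unitKummer_dB (φ : M →+ Additive Qbˣ) (m : M) :
    UnitKummer 2 fun σ => chVal φ (dB ρ (D.killExt m) σ) :=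
  D.unitKummer_of_val (D.adm_dB _) (D.ext_killExt φ m)

/-- `(T - 3)(T² - 9)` kills the valuations of a cocycle with values in `C` on inertia. -/
theorem unitKummer_cocycle (φ : M →+ Additive Qbˣ) {c : Gal → M} (hc : Adm ρ C c) :
    UnitKummer 2 fun σ => chVal φ (T (D.killExt (c σ)) - 3 • D.killExt (c σ)) := by
  set c₁ : Gal → M := fun σ => D.killExt (c σ) with hc₁def
  have hc₁ : Adm ρ C c₁ := adm_comp hc _ D.killExt_comm fun x hx => D.killExt_mem hx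
  have hT : Adm ρ C fun σ => T (c₁ σ) := adm_comp hc₁ T D.comm D.stab_T
  have hTw : ∀ x, T (D.killExt x) = D.killExt (T x) := fun x => by
    simp only [killExt_apply, map_sub, map_nsmul]
  have key : ∀ (ψ : M →+ Additive Qbˣ) (d : Gal → M), Adm ρ C d → (∃ x, d F = D.killExt x) →
      D.val ψ d = D.val (ψ.comp (ρ F⁻¹)) d := by
    intro ψ d hd ⟨x, hx⟩
    rw [D.val_transport ψ hd, D.val_add _ hd (D.adm_dB _), hx]
    exact add_eq_left.mpr (D.ext_killExt (ψ.comp (ρ F⁻¹)) x)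
  have h1 : ∀ ψ, D.val ψ c₁ = D.val (ψ.comp (ρ F⁻¹)) c₁ := fun ψ => key ψ c₁ hc₁ ⟨_, rfl⟩
  have h2 : D.val φ (fun σ => T (c₁ σ)) = 3 * D.val φ c₁ := by
    rw [key φ _ hT ⟨T (c F), hTw _⟩]
    have h := (h1 φ).trans ((h1 _).trans (D.val_frobInv_sq φ hc₁))
    linear_combination -h
  have h3 : D.val φ (fun σ => T (c₁ σ) - 3 • c₁ σ) = 0 := by
    have e3 : D.val φ (fun σ => 3 • c₁ σ) = 3 * D.val φ c₁ := by
      rw [show (fun σ => 3 • c₁ σ) = fun σ => c₁ σ + c₁ σ + c₁ σ from funext fun σ => by abel,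
        D.val_add φ (c := fun σ => c₁ σ + c₁ σ) (adm_comp hc₁ (AddMonoidHom.id M + AddMonoidHom.id M)
          (fun g m => by simp) fun x hx => C.add_mem hx hx) hc₁, D.val_add φ hc₁ hc₁]
      ring
    rw [D.val_sub φ (d := fun σ => 3 • c₁ σ) hT (adm_comp hc₁ ((3 : ℕ) • AddMonoidHom.id M)
        (fun g m => by simp [map_nsmul]) fun x hx => C.nsmul_mem hx _), h2, e3, sub_self]
  exact D.unitKummer_of_val (adm_comp hc₁ (T - (3 : ℕ) • AddMonoidHom.id M)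
    (fun g m => by simp [D.comm, map_sub, map_nsmul])
    fun x hx => C.sub_mem (D.stab_T x hx) (C.nsmul_mem hx _)) h3

end LocalData

end Fermat.Agent.Mazur.Two
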