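import Fermat.Agent.Mazur.Two.Pieces
import Fermat.Agent.Mazur.Two.Valuation
import Mathlib.GroupTheory.OrderOfElement

/-!
# Rational points at one level

A Galois group `J` with an operator `s` mapping its `2^R`-torsion into a module `M` of the descent:
the Kummer classes of fixed points, moved by `2^d (T - 3)(T² - 9) w s`, lie in the Selmer group of
`M`, whose order is at most the number of fixed points of `M`.
-/

set_option autoImplicit false

noncomputable section

namespace Fermat.Agent.Mazur.Two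

open Descent FlatTangent

variable {p : ℕ} [Fact p.Prime] [Fact (Nat.Prime 2)]

/-- A finite level of the descent at two inside `J`. -/
structure Level (J : Type) [AddCommGroup J] [DistribMulAction Gal J] (red : Set J) (Tj sj : J →+ J)
    (R d w k B : ℕ) (p : ℕ) [Fact p.Prime] where
  M : Type
  [add : AddCommGroup M]
  [fin : Finite M]
  ρ : Gal →* AddMonoid.End M
  C : AddSubgroup M
  F : Gal
  T : M →+ M
  ι : M →+ J
  local_two : LocalData ρ C F T R
  unr : ∀ q : ℕ, q.Prime → q ∉ badSet p → ∀ A : ValuationSubring Qb, A.LiesOverPrime q →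
    ∀ σ ∈ A.inertiaSubgroupIn ℚ, ρ σ = 1
  eig : Eig (1 : Gal →* (ZMod 2)ˣ) ρ
  inj : Function.Injective ι
  equiv : ∀ g m, ι (ρ g m) = g • ι m
  hecke : ∀ m, ι (T m) = Tj (ι m)
  proj : ∀ x : J, 2 ^ R • x = 0 → ∃ m, ι m = sj x
  conn : ∀ m, ι m ∈ red → 2 ^ d • m ∈ C
  index_killExt : local_two.killExt.range.index ≤ k
  fixed : Nat.card ↥(fix ρ ⊤) ≤ B
  inertia_p : Nat.card M ≤ C.index * Nat.card ↥(fix ρ (inert p))
  local_p : ∀ c ∈ Z1 ρ, (∃ L : IntermediateField ℚ Qb, FiniteDimensional ℚ L ∧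
      ∀ σ ∈ L.fixingSubgroup, c σ = 0) → ∃ m, ∀ σ ∈ inert p, w • c σ = ρ σ m - m

variable {J : Type} [AddCommGroup J] [DistribMulAction Gal J] {red : Set J} {Tj sj : J →+ J}
  {R d w k B : ℕ}

attribute [instance] Level.add Level.fin

namespace Level

variable (L : Level J red Tj sj R d w k B p)

/-- The operator killing valuations and the local classes at `p`. -/
def op : L.M →+ L.M :=
  (2 ^ d * w) • ((L.T - (3 : ℕ) • AddMonoidHom.id L.M).comp L.local_two.killExt)

/-- The operator on `J`. -/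
def opJ (Tj sj : J →+ J) (d w : ℕ) : J →+ J :=
  ((2 ^ d * w) • ((Tj - (3 : ℕ) • AddMonoidHom.id J).comp
    (Tj.comp Tj - (9 : ℕ) • AddMonoidHom.id J))).comp sj

theorem op_apply (m : L.M) :
    L.op m = (2 ^ d * w) • (L.T (L.local_two.killExt m) - 3 • L.local_two.killExt m) := rfl

theorem ι_op (m : L.M) {x : J} (h : L.ι m = sj x) : L.ι (L.op m) = opJ Tj sj d w x := by
  rw [op_apply, L.local_two.killExt_apply]
  simp [opJ, L.hecke, h, map_sub, map_nsmul, nsmul_sub]
  abel_nf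

theorem op_eq (m : L.M) : L.op m = w • (L.T (L.local_two.killExt (2 ^ d • m)) -
    3 • L.local_two.killExt (2 ^ d • m)) := by
  simp only [op_apply, map_nsmul, nsmul_sub, smul_smul]
  ring_nf

/-- The module of the descent: the image of `T² - 9`. -/
def sub : AddSubgroup L.M := L.local_two.killExt.range

theorem sub_stable : IsStable L.ρ L.sub := by
  rintro g _ ⟨m, rfl⟩
  exact ⟨L.ρ g m, L.local_two.killExt_comm g m⟩

theorem op_mem (m : L.M) : L.op m ∈ L.sub := by
  rw [op_apply]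
  refine L.sub.nsmul_mem (L.sub.sub_mem ⟨L.T m, ?_⟩ (L.sub.nsmul_mem ⟨m, rfl⟩ _)) _
  simp only [L.local_two.killExt_apply, map_sub, map_nsmul]

theorem eig_sub : Eig (1 : Gal →* (ZMod 2)ˣ) (subRep L.ρ L.sub L.sub_stable) := by
  obtain ⟨r, a, h⟩ := L.eig
  refine ⟨r, a, fun x => ⟨Subtype.ext (h x.1).1, fun g => Subtype.ext ?_⟩⟩
  rw [ZeroMemClass.coe_zero, ← L.sub.subtype_apply,
    map_pow_apply L.sub.subtype _ (L.ρ g - 1) (fun _ => rfl),
    map_pow_apply L.sub.subtype _ (L.ρ g - (((1 : Gal →* (ZMod 2)ˣ) g : ZMod 2).val : AddMonoid.End L.M))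
      (fun _ => rfl)]
  exact (h x.1).2 g

theorem B1_sub_le : B1 (subRep L.ρ L.sub L.sub_stable) ≤
    condAt 2 (badSet p) (subRep L.ρ L.sub L.sub_stable) (L.C.comap L.sub.subtype) := by
  rintro _ ⟨⟨m, ⟨m₀, rfl⟩⟩, rfl⟩
  refine condAt_comap (ρ' := L.ρ) L.sub.subtype Subtype.val_injective L.C (dB_mem_Z1 _ _) ?_
  obtain ⟨E, hE, h1⟩ := L.local_two.level
  refine ⟨dB_mem_Z1 L.ρ (L.local_two.killExt m₀), ⟨E, hE, fun σ hσ => ?_⟩,
    fun q hq hqS A hA σ hσ => ?_, fun σ hσ => L.local_two.unip σ hσ _,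
    fun φ => L.local_two.unitKummer_dB φ m₀⟩
  · show L.ρ σ (L.local_two.killExt m₀) - L.local_two.killExt m₀ = 0
    rw [h1 σ hσ]; exact sub_self _
  · show L.ρ σ (L.local_two.killExt m₀) - L.local_two.killExt m₀ = 0
    rw [L.unr q hq hqS A hA σ hσ]; exact sub_self _

/-- The counting inequality of the module of the descent, before the count at `p`. -/
theorem relIndex_mul_le : (B1 (subRep L.ρ L.sub L.sub_stable)).relIndex
      (selW (inertOne p) (subRep L.ρ L.sub L.sub_stable)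
        (condAt 2 (badSet p) (subRep L.ρ L.sub L.sub_stable) (L.C.comap L.sub.subtype))) ≠ 0 ∧
    (B1 (subRep L.ρ L.sub L.sub_stable)).relIndex
      (selW (inertOne p) (subRep L.ρ L.sub L.sub_stable)
        (condAt 2 (badSet p) (subRep L.ρ L.sub L.sub_stable) (L.C.comap L.sub.subtype))) *
        (L.C.index * Nat.card ↥(fix L.ρ (inert p))) ≤ k * k * B * Nat.card L.M := by
  set ρ' := subRep L.ρ L.sub L.sub_stable with hρ'
  have hb := boundW_condAt (F := 1) (fun σ hσ => by simpa using hσ) _ ρ'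
    (L.C.comap L.sub.subtype) rfl L.eig_sub L.B1_sub_le
  refine ⟨hb.1, ?_⟩
  have hu : unitPart ρ' 1 = ⊤ := eq_top_iff.mpr fun m _ => ⟨1, by
    rw [pow_one, map_one, sub_self]; rfl⟩
  have h2 := hb.2
  simp only [hu, top_inf_eq, Finset.univ_unique, Finset.prod_singleton, AddSubgroup.card_top] at h2
  set r := (B1 ρ').relIndex (selW (inertOne p) ρ'
    (condAt 2 (badSet p) ρ' (L.C.comap L.sub.subtype)))
  have hk : L.sub.index ≤ k := L.index_killExt
  have hk0 : L.sub.index ≠ 0 := AddSubgroup.index_ne_zero_of_finite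
  have hfix : Nat.card ↥(fix ρ' ⊤) ≤ B := by
    refine le_trans (Nat.card_le_card_of_injective
      (fun x => (⟨x.1.1, fun σ hσ => congrArg Subtype.val (x.2 σ hσ)⟩ : ↥(fix L.ρ ⊤))) ?_) L.fixed
    exact fun x y h => Subtype.ext (Subtype.ext (congrArg Subtype.val h :))
  have hC : L.C.index ≤ (L.C.comap L.sub.subtype).index * k := by
    refine le_trans (Nat.le_of_dvd (Nat.pos_of_ne_zero AddSubgroup.index_ne_zero_of_finite)
      (AddSubgroup.index_dvd_of_le (inf_le_left : L.C ⊓ L.sub ≤ L.C))) ?_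
    rw [← AddSubgroup.relIndex_mul_index (inf_le_right : L.C ⊓ L.sub ≤ L.sub),
      AddSubgroup.inf_relIndex_right]
    exact Nat.mul_le_mul_left _ hk
  have hI : Nat.card ↥(fix L.ρ (inert p)) ≤ Nat.card ↥(fix ρ' (inert p)) * k := by
    rw [← card_mul_relIndex (inf_le_left : fix L.ρ (inert p) ⊓ L.sub ≤ fix L.ρ (inert p)),
      AddSubgroup.inf_relIndex_left]
    refine Nat.mul_le_mul ?_ (le_trans (Nat.le_of_dvd (Nat.pos_of_ne_zero hk0)
      (L.sub.relIndex_dvd_index_of_normal _)) hk)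
    refine Nat.card_le_card_of_injective (fun x : ↥(fix L.ρ (inert p) ⊓ L.sub) =>
      (⟨⟨x.1, x.2.2⟩, fun σ hσ => Subtype.ext (x.2.1 σ hσ)⟩ : ↥(fix ρ' (inert p)))) ?_
    exact fun x y h => Subtype.ext (congrArg (fun z : ↥(fix ρ' (inert p)) => z.1.1) h)
  have hM : Nat.card L.sub ≤ Nat.card L.M := Nat.card_le_card_of_injective _ Subtype.val_injective
  calc r * (L.C.index * Nat.card ↥(fix L.ρ (inert p)))
      ≤ r * ((L.C.comap L.sub.subtype).index * k * (Nat.card ↥(fix ρ' (inert p)) * k)) :=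
        Nat.mul_le_mul_left _ (Nat.mul_le_mul hC hI)
    _ = r * (L.C.comap L.sub.subtype).index * Nat.card ↥(fix ρ' (inert p)) * (k * k) := by ring
    _ ≤ Nat.card L.sub * Nat.card ↥(fix ρ' ⊤) * (k * k) := Nat.mul_le_mul_right _ h2
    _ ≤ Nat.card L.M * B * (k * k) := Nat.mul_le_mul_right _ (Nat.mul_le_mul hM hfix)
    _ = k * k * B * Nat.card L.M := by ring

/-- The Selmer group of the module of the descent is bounded. -/
theorem relIndex_le : (B1 (subRep L.ρ L.sub L.sub_stable)).relIndex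
      (selW (inertOne p) (subRep L.ρ L.sub L.sub_stable)
        (condAt 2 (badSet p) (subRep L.ρ L.sub L.sub_stable) (L.C.comap L.sub.subtype))) ≠ 0 ∧
    (B1 (subRep L.ρ L.sub L.sub_stable)).relIndex
      (selW (inertOne p) (subRep L.ρ L.sub L.sub_stable)
        (condAt 2 (badSet p) (subRep L.ρ L.sub L.sub_stable) (L.C.comap L.sub.subtype))) ≤
      k * k * B := by
  obtain ⟨h0, h⟩ := L.relIndex_mul_le
  exact ⟨h0, Nat.le_of_mul_le_mul_right (h.trans (Nat.mul_le_mul_left _ L.inertia_p))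
    (Nat.mul_pos (Nat.pos_of_ne_zero AddSubgroup.index_ne_zero_of_finite) Nat.card_pos)⟩

/-- When inertia at `p` acts trivially the connected part has bounded index. -/
theorem index_le_of_trivial (h : ∀ σ ∈ inert p, L.ρ σ = 1) : L.C.index ≤ k * k * B := by
  obtain ⟨h0, hle⟩ := L.relIndex_mul_le
  rw [show fix L.ρ (inert p) = ⊤ from eq_top_iff.mpr fun m _ σ hσ => by rw [h σ hσ]; rfl,
    AddSubgroup.card_top, ← mul_assoc] at hle
  exact (Nat.le_mul_of_pos_left _ (Nat.pos_of_ne_zero h0)).trans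
    (Nat.le_of_mul_le_mul_right hle Nat.card_pos)

include L in
/-- The descent at one level: bounded image of the rational points. -/
theorem exists_nsmul_opJ (hlev : ∀ y : J, ∃ E : IntermediateField ℚ Qb, FiniteDimensional ℚ E ∧
      ∀ σ ∈ E.fixingSubgroup, σ • y = y)
    (hunr : ∀ q : ℕ, q.Prime → q ∉ badSet p → ∀ A : ValuationSubring Qb, A.LiesOverPrime q →
      ∀ σ ∈ A.inertiaSubgroupIn ℚ, ∀ y : J, 2 ^ R • (σ • y - y) = 0 → σ • y = y)
    (hred : ∀ σ ∈ inert 2, ∀ y : J, σ • y - y ∈ red)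
    (hsj : ∀ (g : Gal) (x : J), sj (g • x) = g • sj x) (hTj : ∀ (g : Gal) (x : J), Tj (g • x) = g • Tj x)
    (hredT : ∀ x ∈ red, sj x ∈ red)
    {x : J} (hx : ∀ σ : Gal, σ • x = x) {y : J} (hy : 2 ^ R • y = x) :
    ∃ x' : J, (∀ σ : Gal, σ • x' = x') ∧ 2 ^ (k * k * B) • opJ Tj sj d w x = 2 ^ R • x' := by
  set ρ' := subRep L.ρ L.sub L.sub_stable with hρ'
  have hsub : ∀ (g : Gal) (a b : J), g • (a - b) = g • a - g • b := fun g a b => smul_sub g a b
  have hker : ∀ σ : Gal, 2 ^ R • (σ • y - y) = 0 := fun σ => by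
    rw [nsmul_sub, ← smul_comm σ, hy, hx, sub_self]
  choose c hc using fun σ => L.proj _ (hker σ)
  have hcZ : c ∈ Z1 L.ρ := fun g h => L.inj (by
    rw [map_add, L.equiv, hc, hc, hc, ← hsj, ← map_add, hsub, mul_smul]
    congr 1
    abel)
  obtain ⟨E, hE, hEy⟩ := hlev y
  have hcE : ∀ σ ∈ E.fixingSubgroup, c σ = 0 := fun σ hσ => L.inj (by
    rw [hc, hEy σ hσ, sub_self, map_zero, map_zero])
  set c₂ : Gal → L.M := fun σ => 2 ^ d • c σ with hc₂
  have hc₂A : LocalData.Adm L.ρ L.C c₂ := by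
    refine ⟨nsmul_mem hcZ (2 ^ d), fun σ hσ => L.conn _ ?_, E, hE, fun σ hσ => by
      simp [hc₂, hcE σ hσ]⟩
    rw [hc]
    exact hredT _ (hred σ hσ y)
  let dd : Gal → L.sub := fun σ => ⟨L.op (c σ), L.op_mem _⟩
  have hopc : ∀ g m, L.op (L.ρ g m) = L.ρ g (L.op m) := fun g m => by
    simp only [op_apply, map_nsmul, map_sub, L.local_two.killExt_comm, L.local_two.comm]
  have hddZ : dd ∈ Z1 ρ' := fun g h => Subtype.ext (by
    show L.op (c (g * h)) = L.op (c g) + L.ρ g (L.op (c h))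
    rw [hcZ g h, map_add, hopc])
  have hdd : dd ∈ selW (inertOne p) ρ' (condAt 2 (badSet p) ρ' (L.C.comap L.sub.subtype)) := by
    refine mem_selW.mpr ⟨condAt_comap (ρ' := L.ρ) L.sub.subtype Subtype.val_injective L.C hddZ
      ⟨fun g h => congrArg Subtype.val (hddZ g h), ⟨E, hE, fun σ hσ => ?_⟩,
        fun q hq hqS A hA σ hσ => ?_, fun σ hσ => ?_, fun φ => ?_⟩, fun _ => ?_⟩
    · show L.op (c σ) = 0
      rw [hcE σ hσ, map_zero]
    · show L.op (c σ) = 0
      rw [show c σ = 0 from L.inj (by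
        rw [hc, hunr q hq hqS A hA σ hσ y (hker σ), sub_self, map_zero, map_zero]), map_zero]
    · show L.op (c σ) ∈ L.C
      rw [L.op_eq]
      refine L.C.nsmul_mem ?_ w
      have hcC := L.local_two.killExt_mem (hc₂A.2.1 σ hσ)
      exact L.C.sub_mem (L.local_two.stab_T _ hcC) (L.C.nsmul_mem hcC _)
    · have h := L.local_two.unitKummer_cocycle (φ.comp (w • AddMonoidHom.id L.M)) hc₂A
      exact h.congr fun σ _ => congrArg (chVal φ) (L.op_eq (c σ)).symm
    · obtain ⟨m, hm⟩ := L.local_p c hcZ ⟨E, hE, hcE⟩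
      refine ⟨⟨2 ^ d • (L.T (L.local_two.killExt m) - 3 • L.local_two.killExt m), ?_⟩,
        fun σ hσ => Subtype.ext ?_⟩
      · refine L.sub.nsmul_mem (L.sub.sub_mem ⟨L.T m, ?_⟩ (L.sub.nsmul_mem ⟨m, rfl⟩ _)) _
        simp only [L.local_two.killExt_apply, map_sub, map_nsmul]
      · show L.op (c σ) = L.ρ σ _ - _
        have e : L.op (c σ) = 2 ^ d • (L.T (L.local_two.killExt (w • c σ)) -
            3 • L.local_two.killExt (w • c σ)) := by
          simp only [op_apply, map_nsmul, nsmul_sub, ← mul_nsmul']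
          congr 2
          ring
        rw [e, hm σ hσ]
        simp only [map_nsmul, map_sub, L.local_two.killExt_comm, L.local_two.comm, nsmul_sub]
        abel
  -- a power of two bounded in exponent kills the class
  obtain ⟨hr0, hr⟩ := L.relIndex_le
  set S' := selW (inertOne p) ρ' (condAt 2 (badSet p) ρ' (L.C.comap L.sub.subtype))
  set r := (B1 ρ').relIndex S'
  have hr1 : r • dd ∈ B1 ρ' := by
    have := ((B1 ρ').addSubgroupOf S').nsmul_index_mem (⟨dd, hdd⟩ : S')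
    rw [AddSubgroup.mem_addSubgroupOf] at this
    exact this
  have hr2 : 2 ^ R • dd ∈ B1 ρ' := by
    rw [show 2 ^ R • dd = 0 from funext fun σ => Subtype.ext (L.local_two.kill _)]
    exact zero_mem _
  obtain ⟨j, -, hj⟩ := (Nat.dvd_prime_pow Nat.prime_two).mp (Nat.gcd_dvd_right r (2 ^ R))
  have hj2 : 2 ^ j • dd ∈ B1 ρ' := by
    rw [← hj, ← natCast_zsmul, Nat.gcd_eq_gcd_ab, add_zsmul, mul_comm, mul_zsmul,
      mul_comm ((2 ^ R : ℕ) : ℤ), mul_zsmul, natCast_zsmul, natCast_zsmul]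
    exact add_mem (AddSubgroup.zsmul_mem _ hr1 _) (AddSubgroup.zsmul_mem _ hr2 _)
  have hjle : j ≤ k * k * B := by
    have h1 : 2 ^ j ≤ r := hj ▸ Nat.le_of_dvd (Nat.pos_of_ne_zero hr0) (Nat.gcd_dvd_left r _)
    exact (Nat.lt_two_pow_self.le.trans h1).trans hr
  have hB : 2 ^ (k * k * B) • dd ∈ B1 ρ' := by
    obtain ⟨i, hi⟩ := Nat.exists_eq_add_of_le hjle
    rw [hi, pow_add, mul_comm, mul_nsmul']
    exact AddSubgroup.nsmul_mem _ hj2 _
  obtain ⟨m, hm⟩ := hB
  set y' := 2 ^ (k * k * B) • opJ Tj sj d w y - L.ι m.1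
  have hopJ : ∀ (g : Gal) (z : J), opJ Tj sj d w (g • z) = g • opJ Tj sj d w z := fun g z => by
    simp only [opJ, AddMonoidHom.coe_comp, Function.comp_apply, AddMonoidHom.smul_apply,
      AddMonoidHom.sub_apply, AddMonoidHom.id_apply, hsj, hTj, smul_sub, smul_comm g, map_sub, map_nsmul]
  refine ⟨y', fun σ => ?_, ?_⟩
  · have h1 := congrArg L.ι (congrArg Subtype.val (congrFun hm σ))
    simp only [dB_apply, AddSubgroup.coe_sub, map_sub, Pi.smul_apply,
      AddSubgroup.coe_nsmul, map_nsmul] at h1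
    rw [L.ι_op (c σ) (hc σ), map_sub, hopJ, nsmul_sub] at h1
    rw [← sub_eq_zero]
    simp only [y', smul_sub, smul_comm σ (2 ^ (k * k * B))]
    rw [sub_sub_sub_comm, ← h1, show L.ι ((ρ' σ m : L.sub) : L.M) = σ • L.ι m.1 from L.equiv σ m.1,
      sub_self]
  · rw [nsmul_sub, ← map_nsmul L.ι, L.local_two.kill, map_zero, sub_zero, ← hy, map_nsmul,
      nsmul_left_comm]

end Level

end Fermat.Agent.Mazur.Two
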