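import Fermat.Agent.Mazur.Two.Lattice
import Fermat.Agent.Mazur.Two.Bound
import Fermat.Agent.Mazur.Component.BadPrime
import Fermat.Agent.Mazur.Component.Exists
import Fermat.Agent.Mazur.Component.Unip
import Mathlib.GroupTheory.FiniteAbelian.Basic

/-!
# A rank zero element at the prime two

The levels of an Eisenstein component at two, with the connected part given by the line at two,
satisfy the hypotheses of the descent at two.
-/

set_option autoImplicit false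
set_option linter.style.haveILetI false

noncomputable section

open ModularCurve

namespace Fermat.Agent.Mazur

open Fermat.Agent.FlatTangent Component

variable {p : Nat.Primes} [NeZero (p : ℕ)]

/-- The rational torsion of `J₀(p)` is finite. -/
theorem finite_fixed_torsion :
    {x : JZero (p : ℕ) | (∀ σ : Gal, σ • x = x) ∧ IsOfFinAddOrder x}.Finite := by
  let G := FixedPoints.addSubgroup Gal (JZero (p : ℕ))
  haveI hG : Module.Finite ℤ ↥G := Module.Finite.iff_addGroup_fg.mpr (fg_points p)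
  let T := AddCommGroup.torsion ↥G
  haveI : IsNoetherian ℤ ↥G := isNoetherian_of_isNoetherianRing_of_finite ℤ ↥G
  haveI : Module.Finite ℤ ↥T := Module.Finite.of_injective T.subtype.toIntLinearMap
    Subtype.val_injective
  haveI : AddGroup.FG ↥T := Module.Finite.iff_addGroup_fg.mp inferInstance
  haveI : Finite ↥T := AddCommGroup.finite_of_fg_isAddTorsion (G := ↥T) fun t => by
    obtain ⟨n, hn, ht⟩ := isOfFinAddOrder_iff_nsmul_eq_zero.mp (show IsOfFinAddOrder t.1 from t.2)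
    exact isOfFinAddOrder_iff_nsmul_eq_zero.mpr ⟨n, hn, Subtype.ext ht⟩
  refine (Set.finite_range fun t : T => ((t : ↥G) : JZero (p : ℕ))).subset fun x hx => ?_
  obtain ⟨n, hn, ht⟩ := isOfFinAddOrder_iff_nsmul_eq_zero.mp hx.2
  exact ⟨⟨⟨x, hx.1⟩, isOfFinAddOrder_iff_nsmul_eq_zero.mpr ⟨n, hn, Subtype.ext ht⟩⟩, rfl⟩

omit [NeZero (p : ℕ)] in
theorem isOfFinAddOrder_of_pow {x : JZero (p : ℕ)} {R : ℕ} (hx : 2 ^ R • x = 0) :
    IsOfFinAddOrder x :=
  isOfFinAddOrder_iff_nsmul_eq_zero.mpr ⟨2 ^ R, pow_pos two_pos R, hx⟩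

/-- Inertia at the good primes fixes the points whose differences are killed by a power of two. -/
theorem unr_two {q : ℕ} (hq : q.Prime) (hqS : q ∉ Two.badSet (p : ℕ)) {A : ValuationSubring Qb}
    (hA : A.LiesOverPrime q) {σ : Gal} (hσ : σ ∈ A.inertiaSubgroupIn ℚ) {R : ℕ}
    {y : JZero (p : ℕ)} (hy : 2 ^ R • (σ • y - y) = 0) : σ • y = y := by
  simp only [Two.badSet, Finset.mem_insert, Finset.mem_singleton, not_or] at hqS
  refine sub_eq_zero.mp (eq_zero_of_red hq hqS.2 hA (fun h => hqS.1 ?_) hy ?_)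
  · exact (Nat.prime_dvd_prime_iff_eq hq Nat.prime_two).mp (hq.dvd_of_dvd_pow h)
  · rw [map_sub, red_inertia hσ, sub_self]

/-- The operator of the descent at two as a Hecke operator. -/
theorem heckeOp_two_mul (N : ℕ) [NeZero N] (g e : HeckeAlg) (d w : ℕ) (x : JZero N) :
    heckeOp N (((2 ^ d * w : ℕ) : HeckeAlg) *
        ((g - ((3 : ℕ) : HeckeAlg)) * (g * g - ((9 : ℕ) : HeckeAlg))) * e) x =
      Two.Level.opJ (heckeOp N g) (heckeOp N e) d w x := by
  letI := heckeModuleBar N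
  show (_ : HeckeAlg) • x = (2 ^ d * w) • (g • (g • g • e • x - 9 • e • x) -
    3 • (g • g • e • x - 9 • e • x))
  simp only [mul_smul, sub_smul, Nat.cast_smul_eq_nsmul]

namespace Component

variable (X : Component (p : ℕ) 2)

theorem range_stable_two (R : ℕ) : Descent.IsStable (jRep (p : ℕ)) (X.pt R).range := by
  rintro g _ ⟨v, rfl⟩
  exact ⟨_, (X.smul_pt R g v).symm⟩

theorem finite_range_two (R : ℕ) : Finite ↥(X.pt R).range :=
  ((HK.finite_jZero_nsmul_eq_zero (p : ℕ) (2 ^ R)).subset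
    (by rintro _ ⟨v, rfl⟩; exact X.pow_smul_pt R v)).to_subtype

/-- The representation at a level. -/
def redRep (R : ℕ) : Gal →* AddMonoid.End ↥(X.pt R).range :=
  Descent.subRep (jRep (p : ℕ)) (X.pt R).range (X.range_stable_two R)

theorem coe_redRep (R : ℕ) (g : Gal) (m : ↥(X.pt R).range) :
    ((X.redRep R g m : ↥(X.pt R).range) : JZero (p : ℕ)) = g • (m : JZero (p : ℕ)) := rfl

theorem redRep_pt (R : ℕ) (g : Gal) (v : X.lat) :
    X.redRep R g ((X.pt R).rangeRestrict v) =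
      (X.pt R).rangeRestrict ⟨X.rep g v, X.rep_mem g v v.2⟩ :=
  Subtype.ext (X.smul_pt R g v)

/-- The Hecke operator at two at a level. -/
def redT (R : ℕ) : ↥(X.pt R).range →+ ↥(X.pt R).range :=
  ((heckeOp (p : ℕ) (heckeGen ⟨2, Nat.prime_two⟩)).comp (X.pt R).range.subtype).codRestrict _ (by
    rintro ⟨_, v, rfl⟩
    exact ⟨_, (X.hecke_pt R _ v).symm⟩)

theorem coe_redT (R : ℕ) (m : ↥(X.pt R).range) :
    ((X.redT R m : ↥(X.pt R).range) : JZero (p : ℕ)) =
      heckeOp (p : ℕ) (heckeGen ⟨2, Nat.prime_two⟩) (m : JZero (p : ℕ)) := rfl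

theorem redT_pt (R : ℕ) (v : X.lat) :
    X.redT R ((X.pt R).rangeRestrict v) = (X.pt R).rangeRestrict
      ⟨X.eigℓ • (v : X.W), X.hecke_mem (heckeGen ⟨2, Nat.prime_two⟩) v v.2⟩ :=
  Subtype.ext (X.hecke_pt R _ v)

theorem redRep_eig (R : ℕ) : Descent.Eig (1 : Gal →* (ZMod 2)ˣ) (X.redRep R) := by
  rw [show (1 : Gal →* (ZMod 2)ˣ) = ExtCitation.cycloChar 2 from MonoidHom.ext fun g => by
    rw [MonoidHom.one_apply]
    generalize ExtCitation.cycloChar 2 g = u
    revert u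
    decide]
  exact X.pt_eig R _

attribute [irreducible] redRep redT

/-- The connected part at a level. -/
def redConnPart (R : ℕ) : AddSubgroup ↥(X.pt R).range :=
  X.redLat.toAddSubgroup.map (X.pt R).rangeRestrict

theorem mem_redConnPart {R : ℕ} {v : X.lat} (h : v ∈ X.redLat) :
    (X.pt R).rangeRestrict v ∈ X.redConnPart R :=
  AddSubgroup.mem_map_of_mem _ (show v ∈ X.redLat.toAddSubgroup from h)

theorem rangeRestrict_eq_of_pow {R : ℕ} {u v : X.lat} {y : X.lat} (h : u - v = 2 ^ R • y) :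
    (X.pt R).rangeRestrict u = (X.pt R).rangeRestrict v := by
  refine Subtype.ext (sub_eq_zero.mp ?_)
  show X.pt R u - X.pt R v = 0
  rw [← map_sub]
  exact (X.pt_eq_zero_iff' R _).mpr ⟨y, h⟩

theorem inert_sub_mem_redConnPart (R : ℕ) {σ : Gal} (hσ : σ ∈ inert 2)
    (m : ↥(X.pt R).range) : X.redRep R σ m - m ∈ X.redConnPart R := by
  obtain ⟨v, rfl⟩ := (X.pt R).rangeRestrict_surjective m
  have h : (⟨X.rep σ v, X.rep_mem σ v v.2⟩ : X.lat) - v ∈ X.redLat :=
    X.coe_mem_redLine.mp (X.sub_mem_redLine hσ (v : X.W))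
  rw [redRep_pt, ← map_sub]
  exact X.mem_redConnPart h

theorem cyc_redConnPart (hX : X.NotRed) (R : ℕ) {σ : Gal} (hσ : σ ∈ inert 2)
    {m : ↥(X.pt R).range} (hm : m ∈ X.redConnPart R) {k : ℕ}
    (hk : ∀ ζ : Qb, ζ ^ 2 ^ R = 1 → σ ζ = ζ ^ k) : X.redRep R σ m = k • m := by
  obtain ⟨u, hu, rfl⟩ := hm
  obtain ⟨y, hy⟩ := cycQ_modEq 2 hk
  have hw : X.rep σ (u : X.W) = k • (u : X.W) + 2 ^ R • (y • (u : X.W)) := by
    rw [X.inert_redLine hX hσ (X.coe_mem_redLine.mpr hu), hy, add_smul, Nat.cast_smul_eq_nsmul,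
      ← smul_smul, ← Nat.cast_pow, Nat.cast_smul_eq_nsmul]
  rw [redRep_pt, ← map_nsmul]
  refine X.rangeRestrict_eq_of_pow (y := y • u) (Subtype.ext ?_)
  show X.rep σ (u : X.W) - k • (u : X.W) = 2 ^ R • (y • (u : X.W))
  rw [hw, add_sub_cancel_left]

theorem stab_redConnPart (hX : X.NotRed) (R : ℕ) {g : Gal} (hg : g ∈ dec 2)
    {m : ↥(X.pt R).range} (hm : m ∈ X.redConnPart R) : X.redRep R g m ∈ X.redConnPart R := by
  obtain ⟨u, hu, rfl⟩ := hm
  have h : (⟨X.rep g u, X.rep_mem g u u.2⟩ : X.lat) ∈ X.redLat :=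
    X.coe_mem_redLine.mp (X.dec_stable hX hg (X.coe_mem_redLine.mpr hu))
  rw [redRep_pt]
  exact X.mem_redConnPart h

theorem stab_T_redConnPart (R : ℕ) {m : ↥(X.pt R).range} (hm : m ∈ X.redConnPart R) :
    X.redT R m ∈ X.redConnPart R := by
  obtain ⟨u, hu, rfl⟩ := hm
  rw [redT_pt]
  exact X.mem_redConnPart (X.hecke_mem_redLat _ hu)

set_option maxHeartbeats 1000000 in
theorem onC_redConnPart (hp : (p : ℕ) ≠ 2) (hX : X.NotRed) {R : ℕ} {F : Gal}
    (hF : (plc 2).IsFrobeniusAt F 2) (hfix : ∀ ζ : Qb, ζ ^ 2 ^ R = 1 → F ζ = ζ)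
    {m : ↥(X.pt R).range} (hm : m ∈ X.redConnPart R) :
    X.redRep R F⁻¹ (X.redRep R F⁻¹ m) - X.redT R (X.redRep R F⁻¹ m) + (m + m) = 0 := by
  obtain ⟨u, hu, rfl⟩ := hm
  obtain ⟨y, hy, hxy⟩ := X.frobInv_redLine hp hX hF hfix (X.coe_mem_redLine.mpr hu) u.2
  rw [X.redRep_pt R F⁻¹ u, X.redT_pt R ⟨X.rep F⁻¹ u, X.rep_mem F⁻¹ u u.2⟩,
    X.redRep_pt R F⁻¹ ⟨X.rep F⁻¹ u, X.rep_mem F⁻¹ u u.2⟩, ← map_sub, ← map_add, ← map_add,
    ← map_zero (X.pt R).rangeRestrict]
  refine X.rangeRestrict_eq_of_pow (y := ⟨y, hy⟩) (Subtype.ext ?_)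
  show X.rep F⁻¹ (X.rep F⁻¹ (u : X.W)) - X.eigℓ • X.rep F⁻¹ (u : X.W) +
    ((u : X.W) + (u : X.W)) - 0 = 2 ^ R • y
  rw [sub_zero, ← two_nsmul, hxy]

set_option maxHeartbeats 1000000 in
theorem onQuot_redConnPart (hp : (p : ℕ) ≠ 2) (R : ℕ) {F : Gal}
    (hF : (plc 2).IsFrobeniusAt F 2) (m : ↥(X.pt R).range) :
    X.redRep R F (X.redRep R F m) - X.redT R (X.redRep R F m) + (m + m) ∈ X.redConnPart R := by
  obtain ⟨v, rfl⟩ := (X.pt R).rangeRestrict_surjective m
  have h := X.quad_mem_redLine hp hF (v : X.W)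
  rw [two_nsmul] at h
  rw [X.redRep_pt R F v, X.redT_pt R ⟨X.rep F v, X.rep_mem F v v.2⟩,
    X.redRep_pt R F ⟨X.rep F v, X.rep_mem F v v.2⟩, ← map_sub, ← map_add, ← map_add]
  refine X.mem_redConnPart (X.coe_mem_redLine.mp ?_)
  exact h

theorem redT_comm (R : ℕ) (g : Gal) (m : ↥(X.pt R).range) :
    X.redT R (X.redRep R g m) = X.redRep R g (X.redT R m) :=
  Subtype.ext <| ((X.coe_redT R _).trans
    ((congrArg (heckeOp (p : ℕ) (heckeGen ⟨2, Nat.prime_two⟩)) (X.coe_redRep R g m)).trans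
      (heckeOp_smul _ _ g _))).trans
    ((X.coe_redRep R g _).trans (congrArg (g • ·) (X.coe_redT R m))).symm

/-- The local data at two at a level. -/
theorem localData (hp : (p : ℕ) ≠ 2) (hX : X.NotRed) (R : ℕ) {F : Gal}
    (hF : (plc 2).IsFrobeniusAt F 2) (hfix : ∀ ζ : Qb, ζ ^ 2 ^ R = 1 → F ζ = ζ) :
    Two.LocalData (X.redRep R) (X.redConnPart R) F (X.redT R) R where
  kill := fun ⟨_, v, e⟩ => Subtype.ext (by subst e; exact X.pow_smul_pt R v)
  level := by
    haveI := X.finite_range_two R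
    haveI : FF.IsFunctionField (AlgebraicClosure ℚ) (modularFunctionFieldBar (p : ℕ)) :=
      MF.Coeff.isFunctionField_laurentBaseChange _ _
    obtain ⟨E, hE, h⟩ := MW.jzero_finite_fixed_level (N := (p : ℕ)) MW.exists_unique_pole
      (Set.toFinite ((X.pt R).range : Set (JZero (p : ℕ))))
    exact ⟨E, hE, fun σ hσ => AddMonoidHom.ext fun m => Subtype.ext ((X.coe_redRep R σ m).trans
      (h σ ((IntermediateField.mem_fixingSubgroup_iff _ _).mp hσ) _ m.2))⟩
  unip σ hσ m := X.inert_sub_mem_redConnPart R hσ m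
  cyc σ hσ m hm k hk := X.cyc_redConnPart hX R hσ hm hk
  mem_dec := hF.mem_decompositionSubgroup
  frob_fix := hfix
  comm g m := X.redT_comm R g m
  stab_T m hm := X.stab_T_redConnPart R hm
  stab m hm := X.stab_redConnPart hX R (inv_mem hF.mem_decompositionSubgroup) hm
  onC m hm := X.onC_redConnPart hp hX hF hfix hm
  onQuot m := X.onQuot_redConnPart hp R hF m

theorem card_img_two (S : Submodule X.K X.W) (Λ : Submodule ℤ_[2] X.W)
    (hΛ : ∀ x, x ∈ Λ ↔ x ∈ X.lat ∧ x ∈ S) (R : ℕ) (π : Λ →+ JZero (p : ℕ))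
    (hπ : ∀ x : Λ, π x = X.pt R ⟨x, ((hΛ _).mp x.2).1⟩) :
    Nat.card ↥π.range = 2 ^ (R * (Module.finrank ℚ_[2] X.K * Module.finrank X.K S)) := by
  haveI : Module.Finite ℤ_[2] Λ := by
    haveI : IsNoetherian ℤ_[2] X.lat := isNoetherian_of_isNoetherianRing_of_finite _ _
    exact Module.Finite.of_injective
      (Submodule.inclusion (show Λ ≤ X.lat from fun x hx => ((hΛ x).mp hx).1))
      (Submodule.inclusion_injective _)
  have hc := natCard_range_eq_pow (S.restrictScalars ℚ_[2]) Λ (fun x hx => ((hΛ x).mp hx).2)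
    (fun w hw => by
      obtain ⟨k, hk⟩ := X.exists_nsmul_mem w
      exact ⟨k, (hΛ _).mpr ⟨hk, S.toAddSubgroup.nsmul_mem hw _⟩⟩) R π (fun x => by
      rw [hπ, X.pt_eq_zero_iff']
      constructor
      · rintro ⟨y, hy⟩
        have h1 : (x : X.W) = 2 ^ R • (y : X.W) := congrArg Subtype.val hy
        refine ⟨⟨y.1, (hΛ _).mpr ⟨y.2, ?_⟩⟩, Subtype.ext h1⟩
        have h2 : ((2 ^ R : ℕ) : X.K) • (y : X.W) ∈ S := by
          rw [Nat.cast_smul_eq_nsmul, ← h1]; exact ((hΛ _).mp x.2).2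
        exact (S.smul_mem_iff (Nat.cast_ne_zero.mpr (pow_ne_zero R two_ne_zero))).mp h2
      · rintro ⟨y, rfl⟩
        exact ⟨⟨y.1, ((hΛ _).mp y.2).1⟩, Subtype.ext rfl⟩)
  rw [hc]
  congr 2
  exact (Module.finrank_mul_finrank ℚ_[2] X.K S).symm

theorem card_range_two (R : ℕ) :
    Nat.card ↥(X.pt R).range = 2 ^ (R * (Module.finrank ℚ_[2] X.K * 2)) := by
  have h := X.card_img_two ⊤ X.lat (fun x => ⟨fun h => ⟨h, trivial⟩, fun h => h.1⟩) R (X.pt R)
    (fun x => rfl)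
  rwa [finrank_top, X.finrank_two] at h

theorem card_redConnPart (hX : X.NotRed) (R : ℕ) :
    Nat.card ↥(X.redConnPart R) = 2 ^ (R * Module.finrank ℚ_[2] X.K) := by
  let Λ : Submodule ℤ_[2] X.W := X.redLat.map X.lat.subtype
  have hΛ : ∀ x, x ∈ Λ ↔ x ∈ X.lat ∧ x ∈ X.redLine := by
    intro x
    constructor
    · rintro ⟨u, hu, rfl⟩
      exact ⟨u.2, X.coe_mem_redLine.mpr hu⟩
    · exact fun ⟨h, h'⟩ => ⟨⟨x, h⟩, X.coe_mem_redLine.mp h', rfl⟩
  let π : Λ →+ JZero (p : ℕ) :=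
    (X.pt R).comp (Submodule.inclusion (show Λ ≤ X.lat from fun x hx => ((hΛ x).mp hx).1)).toAddMonoidHom
  have h := X.card_img_two X.redLine Λ hΛ R π (fun x => rfl)
  rw [X.finrank_redLine hX, mul_one] at h
  rw [← h]
  refine Nat.card_congr (Equiv.ofBijective (fun m : X.redConnPart R =>
    (⟨m.1.1, by
      obtain ⟨u, hu, he⟩ := m.2
      exact ⟨⟨u, ⟨u, hu, rfl⟩⟩, congrArg Subtype.val he⟩⟩ : π.range)) ⟨?_, ?_⟩)
  · exact fun a b hab => Subtype.ext (Subtype.ext (congrArg (fun z : π.range => z.1) hab))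
  · rintro ⟨_, x, rfl⟩
    obtain ⟨u, hu, hux⟩ := x.2
    refine ⟨⟨(X.pt R).rangeRestrict u, AddSubgroup.mem_map_of_mem _ hu⟩, Subtype.ext ?_⟩
    exact congrArg (X.pt R) (Subtype.ext hux)

theorem index_redConnPart (hX : X.NotRed) (R : ℕ) :
    (X.redConnPart R).index = 2 ^ (R * Module.finrank ℚ_[2] X.K) := by
  have h := (X.redConnPart R).card_mul_index
  rw [X.card_redConnPart hX, X.card_range_two, ← mul_assoc, mul_two, pow_add] at h
  exact Nat.eq_of_mul_eq_mul_left (pow_pos two_pos _) h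

set_option maxHeartbeats 1000000 in
/-- `T² - 9` has bounded cokernel at every level. -/
theorem exists_index_two (hp : (p : ℕ) ≠ 2) : ∃ k : ℕ, ∀ (R : ℕ) {F : Gal}
    (D : Two.LocalData (X.redRep R) (X.redConnPart R) F (X.redT R) R),
      D.killExt.range.index ≤ k := by
  obtain ⟨κ, hκ⟩ := X.exists_pow_smul_eq (sub_ne_zero.mpr (X.eigℓ_mul_ne hp.symm))
  refine ⟨Nat.card ↥{x : JZero (p : ℕ) | 2 ^ κ • x = 0}, fun R F D => ?_⟩
  haveI := X.finite_range_two R
  haveI : Finite ↥{x : JZero (p : ℕ) | 2 ^ κ • x = 0} :=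
    (HK.finite_jZero_nsmul_eq_zero (p : ℕ) (2 ^ κ)).to_subtype
  let f : ↥(X.pt R).range →+ ↥(X.pt R).range := nsmulAddMonoidHom (2 ^ κ)
  have hle : f.range ≤ D.killExt.range := by
    rintro _ ⟨m, rfl⟩
    obtain ⟨v, rfl⟩ := (X.pt R).rangeRestrict_surjective m
    obtain ⟨y, hy, hxy⟩ := hκ v v.2
    refine ⟨(X.pt R).rangeRestrict ⟨y, hy⟩, ?_⟩
    show D.killExt _ = 2 ^ κ • (X.pt R).rangeRestrict v
    rw [D.killExt_apply, redT_pt, redT_pt, ← map_nsmul, ← map_sub, ← map_nsmul]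
    refine congrArg _ (Subtype.ext ?_)
    show X.eigℓ • X.eigℓ • y - 9 • y = 2 ^ κ • (v : X.W)
    rw [hxy, sub_smul, mul_smul, Nat.cast_smul_eq_nsmul]
    norm_num
  refine (Nat.le_of_dvd (Nat.pos_of_ne_zero AddSubgroup.index_ne_zero_of_finite)
    (AddSubgroup.index_dvd_of_le hle)).trans ?_
  rw [AddSubgroup.index_range]
  exact Nat.card_le_card_of_injective
    (fun m => (⟨(m.1 : JZero (p : ℕ)), congrArg Subtype.val m.2⟩ :
      ↥{x : JZero (p : ℕ) | 2 ^ κ • x = 0}))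
    fun a b h => Subtype.ext (Subtype.ext
      (congrArg (fun z : ↥{x : JZero (p : ℕ) | 2 ^ κ • x = 0} => z.1) h))

theorem redRep_eq_one (R : ℕ) {σ : Gal} (h : X.rep σ = 1) : X.redRep R σ = 1 := by
  refine AddMonoidHom.ext fun m => ?_
  obtain ⟨v, rfl⟩ := (X.pt R).rangeRestrict_surjective m
  have hv : (⟨X.rep σ v, X.rep_mem σ v v.2⟩ : X.lat) = v :=
    Subtype.ext (LinearMap.congr_fun h (v : X.W))
  exact (X.redRep_pt R σ v).trans (congrArg (X.pt R).rangeRestrict hv)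

/-- The level of the descent at two. -/
def redLevel (hp : (p : ℕ) ≠ 2) (hX : X.NotRed) [Fact (p : ℕ).Prime] {R : ℕ} {F : Gal}
    (hF : (plc 2).IsFrobeniusAt F 2) (hfix : ∀ ζ : Qb, ζ ^ 2 ^ R = 1 → F ζ = ζ) {d w k B : ℕ}
    (hd : ∀ (R : ℕ) (v : X.lat), X.pt R v ∈ redCore p →
      ∃ u ∈ X.redLat, X.pt R (2 ^ d • v) = X.pt R u)
    (hk : ∀ (R : ℕ) {F : Gal}
      (D : Two.LocalData (X.redRep R) (X.redConnPart R) F (X.redT R) R),
        D.killExt.range.index ≤ k)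
    (hB : Nat.card ↥{x : JZero (p : ℕ) | (∀ σ : Gal, σ • x = x) ∧ IsOfFinAddOrder x} ≤ B)
    (hI : Nat.card ↥(X.pt R).range ≤
      (X.redConnPart R).index * Nat.card ↥(Descent.fix (X.redRep R) (inert (p : ℕ))))
    (hcls : ∀ c ∈ Descent.Z1 (X.redRep R), (∃ L : IntermediateField ℚ Qb, FiniteDimensional ℚ L ∧
      ∀ σ ∈ L.fixingSubgroup, c σ = 0) → ∃ m, ∀ σ ∈ inert (p : ℕ),
        w • c σ = X.redRep R σ m - m) :
    Two.Level (JZero (p : ℕ)) (redCore p : Set (JZero (p : ℕ)))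
      (heckeOp (p : ℕ) (heckeGen ⟨2, Nat.prime_two⟩)) (heckeOp (p : ℕ) (X.e R)) R d w k B (p : ℕ) :=
  haveI := X.finite_range_two R
  { M := ↥(X.pt R).range
    ρ := X.redRep R
    C := X.redConnPart R
    F := F
    T := X.redT R
    ι := (X.pt R).range.subtype
    local_two := X.localData hp hX R hF hfix
    unr := fun q hq hqS A hA σ hσ => AddMonoidHom.ext fun m => Subtype.ext (by
      refine (X.coe_redRep R σ m).trans (?_ : σ • (m : JZero (p : ℕ)) = (m : JZero (p : ℕ)))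
      refine unr_two hq hqS hA hσ (R := R) ?_
      obtain ⟨v, hv⟩ := m.2
      rw [nsmul_sub, ← hv, X.smul_pt, X.pow_smul_pt, X.pow_smul_pt, sub_self])
    eig := X.redRep_eig R
    inj := Subtype.val_injective
    equiv := fun g m => X.coe_redRep R g m
    hecke := fun m => X.coe_redT R m
    proj := fun y hy => by
      obtain ⟨v, hv⟩ := X.proj R y hy
      exact ⟨⟨_, v, rfl⟩, hv⟩
    conn := fun m hm => by
      obtain ⟨v, rfl⟩ := (X.pt R).rangeRestrict_surjective m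
      obtain ⟨u, hu, he⟩ := hd R v hm
      rw [← map_nsmul]
      exact ⟨u, hu, Subtype.ext he.symm⟩
    index_killExt := hk R _
    fixed := by
      haveI : Finite ↥{x : JZero (p : ℕ) | (∀ σ : Gal, σ • x = x) ∧ IsOfFinAddOrder x} :=
        finite_fixed_torsion.to_subtype
      refine le_trans (Nat.card_le_card_of_injective (fun m =>
        (⟨(m.1 : JZero (p : ℕ)), fun σ => (X.coe_redRep R σ m.1).symm.trans (congrArg Subtype.val (m.2 σ trivial)), by
          obtain ⟨v, hv⟩ := m.1.2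
          exact isOfFinAddOrder_of_pow (R := R) (by rw [← hv]; exact X.pow_smul_pt R v)⟩ :
          ↥{x : JZero (p : ℕ) | (∀ σ : Gal, σ • x = x) ∧ IsOfFinAddOrder x})) ?_) hB
      exact fun a b h => Subtype.ext (Subtype.ext
        (congrArg (fun z : ↥{x : JZero (p : ℕ) | (∀ σ : Gal, σ • x = x) ∧ IsOfFinAddOrder x} =>
          z.1) h))
    inertia_p := hI
    local_p := hcls }

/-- Inertia at `p` is unipotent on the component. -/
theorem unip_two [Fact (p : ℕ).Prime] (hp : (p : ℕ) ≠ 2) {σ : Gal} (hσ : σ ∈ inert (p : ℕ))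
    (w : X.W) : X.rep σ (X.rep σ w - w) = X.rep σ w - w := by
  obtain ⟨k, hk⟩ := X.exists_nsmul_mem w
  set v : X.lat := ⟨_, hk⟩
  have h : (⟨X.rep σ (X.rep σ v - v), X.rep_mem σ _ (X.lat.sub_mem (X.rep_mem σ v v.2) v.2)⟩ :
      X.lat) - ⟨X.rep σ v - v, X.lat.sub_mem (X.rep_mem σ v v.2) v.2⟩ = 0 := by
    refine X.eq_zero_of_forall_pt fun R => ?_
    have hs : σ • X.pt R v - X.pt R v =
        X.pt R ⟨X.rep σ v - v, X.lat.sub_mem (X.rep_mem σ v v.2) v.2⟩ := by
      rw [X.smul_pt, ← map_sub]; rfl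
    have h1 := inertP_sub_sq p Nat.prime_two hp.symm (X.pow_smul_pt R v) (σ := σ) hσ
    rw [hs, X.smul_pt] at h1
    rw [map_sub, h1, sub_self]
  have h' : X.rep σ (X.rep σ (v : X.W) - v) - (X.rep σ (v : X.W) - v) = 0 :=
    congrArg Subtype.val h
  rw [sub_eq_zero, show (v : X.W) = 2 ^ k • w from rfl, map_nsmul, ← nsmul_sub, map_nsmul] at h'
  rw [← Nat.cast_smul_eq_nsmul X.K, ← Nat.cast_smul_eq_nsmul X.K] at h'
  exact smul_right_injective X.W
    (Nat.cast_ne_zero.mpr (pow_ne_zero k two_ne_zero) : ((2 ^ k : ℕ) : X.K) ≠ 0) h'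

set_option maxHeartbeats 1600000 in
include X in
/-- **A component at two not inside the kernel of reduction gives a rank zero element.** -/
theorem rankZeroElement_of_notRed (hp : (p : ℕ) ≠ 2) (hX : X.NotRed) :
    RankZeroElement (p : ℕ) := by
  haveI : Fact (p : ℕ).Prime := ⟨p.2⟩
  obtain ⟨d, hd⟩ := X.exists_conn_redLine
  obtain ⟨k, hk⟩ := X.exists_index_two hp
  set B := Nat.card ↥{x : JZero (p : ℕ) | (∀ σ : Gal, σ • x = x) ∧ IsOfFinAddOrder x}
  have hpos : 0 < Module.finrank ℚ_[2] X.K := Module.finrank_pos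
  -- inertia at `p` is not trivial
  have hram : ∃ σ ∈ inert (p : ℕ), X.rep σ ≠ 1 := by
    by_contra hcon
    push Not at hcon
    set R := k * k * B with hR
    obtain ⟨F, hF, hfix⟩ := exists_frob_fix 2 R
    have htriv : ∀ σ ∈ inert (p : ℕ), X.redRep R σ = 1 := fun σ hσ =>
      X.redRep_eq_one R (hcon σ hσ)
    haveI := X.finite_range_two R
    let L := X.redLevel hp hX hF hfix (d := d) (w := 0) hd hk le_rfl
      (by
        rw [show Descent.fix (X.redRep R) (inert (p : ℕ)) = ⊤ from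
          eq_top_iff.mpr fun m _ σ hσ => by rw [htriv σ hσ]; rfl, AddSubgroup.card_top]
        exact Nat.le_mul_of_pos_left _ (Nat.pos_of_ne_zero AddSubgroup.index_ne_zero_of_finite))
      (fun c _ _ => ⟨0, fun σ _ => by rw [zero_smul, map_zero, sub_zero]⟩)
    have h : (X.redConnPart R).index ≤ k * k * B := L.index_le_of_trivial htriv
    rw [X.index_redConnPart hX, ← hR] at h
    exact absurd ((Nat.pow_le_pow_right two_pos (Nat.le_mul_of_pos_right R hpos)).trans h)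
      (not_le.mpr Nat.lt_two_pow_self)
  obtain ⟨Fp, hFp⟩ := exists_frobenius (p := (p : ℕ))
  have hBad : BadDatum (p : ℕ) X.rep X.lat Fp :=
    { ne := hp
      rank := X.finrank_two
      fin := inferInstance
      stable := X.rep_mem
      span := X.exists_nsmul_mem
      level := fun r => by
        obtain ⟨E, hE, h⟩ := (X.localData hp hX r (exists_frob_fix 2 r).choose_spec.1
          (exists_frob_fix 2 r).choose_spec.2).level
        refine ⟨E, hE, fun σ hσ x hx => ?_⟩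
        have h0 : X.pt r (⟨X.rep σ x, X.rep_mem σ x hx⟩ - ⟨x, hx⟩) = 0 := by
          rw [map_sub, ← X.smul_pt r σ ⟨x, hx⟩, sub_eq_zero]
          exact (X.coe_redRep r σ ⟨_, ⟨⟨x, hx⟩, rfl⟩⟩).symm.trans
            (congrArg Subtype.val (DFunLike.congr_fun (h σ hσ) ⟨_, ⟨⟨x, hx⟩, rfl⟩⟩))
        obtain ⟨y, hy⟩ := (X.pt_eq_zero_iff' r _).mp h0
        exact ⟨y, y.2, congrArg Subtype.val hy⟩
      unip := fun σ hσ w => X.unip_two hp hσ w
      frob := hFp
      det := by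
        rw [X.det_rep, GAL.cycQ_frobenius 2 (plc_liesOverPrime _) p.2 hFp hp, map_natCast]
      ram := hram }
  obtain ⟨w, hw, hcls⟩ := hBad.exists_classes_bound
  let a : HeckeAlg := ((2 ^ d * w : ℕ) : HeckeAlg) *
    ((heckeGen ⟨2, Nat.prime_two⟩ - ((3 : ℕ) : HeckeAlg)) *
      (heckeGen ⟨2, Nat.prime_two⟩ * heckeGen ⟨2, Nat.prime_two⟩ - ((9 : ℕ) : HeckeAlg)))
  have ha : X.charT (CuspForm.heckeEvalForms (p : ℕ) 2 a) ≠ 0 := by
    simp only [a, map_mul, map_sub, map_natCast]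
    refine mul_ne_zero (Nat.cast_ne_zero.mpr (Nat.mul_pos (pow_pos two_pos d) hw).ne')
      (mul_ne_zero (sub_ne_zero.mpr fun h => ?_) (sub_ne_zero.mpr fun h => ?_))
    · exact X.eigℓ_ne hp.symm (c := 3) le_rfl (h.trans (by norm_num))
    · exact X.eigℓ_mul_ne hp.symm (h.trans (by norm_num))
  refine rankZeroElement_of_dvd (p : ℕ) Nat.prime_two (fun R => a * X.e R)
    (C := 2 ^ (k * k * B)) (pow_pos two_pos _) (fg_points p) (fun R x hx => ?_) (X.not_dvd a ha)
  obtain ⟨F, hF, hfix⟩ := exists_frob_fix 2 R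
  haveI := X.finite_range_two R
  have hker : ∀ v, (X.pt R).rangeRestrict v = 0 ↔ ∃ y, v = 2 ^ R • y := fun v => by
    rw [← X.pt_eq_zero_iff']
    exact ⟨fun h => congrArg Subtype.val h, fun h => Subtype.ext h⟩
  have heq : ∀ g (v : X.lat), (X.pt R).rangeRestrict ⟨X.rep g v, hBad.stable g v v.2⟩ =
      X.redRep R g ((X.pt R).rangeRestrict v) := fun g v => (X.redRep_pt R g v).symm
  let L := X.redLevel hp hX hF hfix (d := d) (w := w) (R := R) hd hk le_rfl
    (by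
      rw [X.card_range_two, X.index_redConnPart hX, ← mul_assoc, mul_two, pow_add]
      exact Nat.mul_le_mul_left _ (hBad.pow_le_card_fix (X.redRep R) _
        (X.pt R).rangeRestrict_surjective hker heq))
    (hcls (X.redRep R) _ (X.pt R).rangeRestrict_surjective hker heq)
  obtain ⟨y, hy⟩ := (pointSetting (p := p) 2).divisible R x
  obtain ⟨z, hz, hzx⟩ := L.exists_nsmul_opJ (pointSetting (p := p) 2).level
    (fun q hq hqS A hA σ hσ y hy => unr_two hq hqS hA hσ hy)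
    (fun σ hσ y => inertia_sub_mem_redCore hσ y)
    (fun g x => heckeOp_smul _ _ g x) (fun g x => heckeOp_smul _ _ g x)
    (fun x hx => heckeOp_mem_redCore _ hx) hx hy
  refine ⟨z, hz, ?_⟩
  rw [← hzx]
  congr 1
  exact heckeOp_two_mul (p : ℕ) _ (X.e R) d w x

end Component

/-- A rational class of two-power order not killed by reduction at two gives a rank zero
element. -/
theorem rankZeroElement_of_two_torsion (hp : (p : ℕ) ≠ 2) {r : ℕ} {c : JZero (p : ℕ)}
    (hc : 2 ^ r • c = 0) (hfix : ∀ σ : Gal, σ • c = c)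
    (hred : reductionModL (plc 2) (p : ℕ) c ≠ 0) : RankZeroElement (p : ℕ) := by
  haveI : Fact (p : ℕ).Prime := ⟨p.2⟩
  let φ : JZero (p : ℕ) →+ JZero (p : ℕ) ⧸ redCore p := QuotientAddGroup.mk' (redCore p)
  have hφ : φ c ≠ 0 := fun h => hred (redCore_le ((QuotientAddGroup.eq_zero_iff c).mp h))
  obtain ⟨X, R, v, hv⟩ := Component.exists_component_prime (ℓ := 2) (p : ℕ)
    (J' := JZero (p : ℕ) ⧸ redCore p) φ hc hfix hφ
  exact X.rankZeroElement_of_notRed hp ⟨R, v, fun h => hv ((QuotientAddGroup.eq_zero_iff _).mpr h)⟩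

/-- The existence of a rational class of two-power order surviving reduction at two. -/
def CuspClassTwo (p : ℕ) [NeZero p] : Prop :=
  ∃ (r : ℕ) (c : JZero p), 2 ^ r • c = 0 ∧ (∀ σ : Gal, σ • c = c) ∧
    reductionModL (plc 2) p c ≠ 0

/-- The rank zero element at the prime two. -/
theorem rankZeroElement_two {q : ℕ} [NeZero q] (hq : q.Prime) (hq2 : q ≠ 2)
    (hc : CuspClassTwo q) : RankZeroElement q := by
  obtain ⟨r, c, hc, hfix, hred⟩ := hc
  haveI : NeZero ((⟨q, hq⟩ : Nat.Primes) : ℕ) := ⟨hq.ne_zero⟩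
  exact rankZeroElement_of_two_torsion (p := ⟨q, hq⟩) hq2 hc hfix hred

end Fermat.Agent.Mazur
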