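import Mathlib.RingTheory.Filtration
import Mathlib.RingTheory.Int.Basic
import Mathlib.LinearAlgebra.FreeModule.PID
import Mathlib.GroupTheory.Finiteness
import Mathlib.Algebra.Module.Torsion.Free
import Mathlib.Algebra.Module.Torsion.Basic

/-!
# An operator killing the free part from approximate ones

If for every level some operator, not divisible by `ℓ^d`, has bounded image on a finitely generated
group modulo `ℓ^R`, then a non-zero operator has torsion image. No completion is involved: this is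
the lemma of Artin and Rees.
-/

set_option autoImplicit false

namespace Fermat.Agent.Mazur.Two

theorem exists_torsion_image {H T A : Type*} [AddCommGroup H] [AddCommGroup T] [AddCommGroup A]
    (ev : H →+ T) (hA : AddGroup.FG A) (act : H →+ A →+ A) {ℓ : ℕ} (hℓ : ℓ ≠ 0) (d B : ℕ)
    (h : ∀ R : ℕ, ∃ s : H, (∀ t : T, ev s ≠ (ℓ ^ d) • t) ∧
      ∀ a : A, ∃ a' : A, (ℓ ^ B) • act s a = (ℓ ^ R) • a') :
    ∃ t : H, ev t ≠ 0 ∧ ∀ a : A, ∃ m : ℕ, 0 < m ∧ m • act t a = 0 := by
  classical
  by_contra hcon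
  push Not at hcon
  have : Module.Finite ℤ A := Module.Finite.iff_addGroup_fg.mpr hA
  obtain ⟨n, g, hg⟩ := Module.Finite.exists_fin (R := ℤ) (M := A)
  let tor : Submodule ℤ A := Submodule.torsion ℤ A
  let P := Fin n → A ⧸ tor
  have : Module.IsTorsionFree ℤ (A ⧸ tor) := Submodule.QuotientTorsion.instIsTorsionFree
  let G : H →+ P := AddMonoidHom.mk' (fun t i => tor.mkQ (act t (g i)))
    fun s t => funext fun i => by
      show tor.mkQ (act (s + t) (g i)) = tor.mkQ (act s (g i)) + tor.mkQ (act t (g i))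
      simp
  have hker : ∀ t, G t = 0 → ev t = 0 := by
    intro t ht
    by_contra hev
    obtain ⟨a, ha⟩ := hcon t hev
    have hmem : act t a ∈ tor := by
      have : a ∈ Submodule.span ℤ (Set.range g) := by rw [hg]; trivial
      clear ha
      induction this using Submodule.span_induction with
      | mem x hx =>
        obtain ⟨i, rfl⟩ := hx
        exact (Submodule.Quotient.mk_eq_zero tor).mp (congrFun ht i)
      | zero => rw [map_zero]; exact tor.zero_mem
      | add x y _ _ hx hy => rw [map_add]; exact tor.add_mem hx hy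
      | smul c x _ hx => rw [map_zsmul]; exact tor.smul_mem c hx
    obtain ⟨c, hc⟩ := (Submodule.mem_torsion_iff _).mp hmem
    refine ha c.1.natAbs (Int.natAbs_pos.mpr (nonZeroDivisors.ne_zero c.2)) ?_
    rw [natAbs_nsmul_eq_zero]
    exact hc
  let U : Submodule ℤ P := LinearMap.range G.toIntLinearMap
  obtain ⟨k, hk⟩ := Ideal.exists_pow_inf_eq_pow_smul (Ideal.span {(ℓ : ℤ)}) U
  obtain ⟨s, hs, hsB⟩ := h (B + d + k)
  have hx : (ℓ ^ B : ℕ) • G s ∈ (Ideal.span {(ℓ : ℤ)} ^ (B + d + k)) • (⊤ : Submodule ℤ P) ⊓ U := by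
    refine ⟨?_, U.toAddSubgroup.nsmul_mem ⟨s, rfl⟩ _⟩
    choose a' ha' using fun i => hsB (g i)
    have e : (ℓ ^ B : ℕ) • G s = ((ℓ : ℤ) ^ (B + d + k)) • (fun i => tor.mkQ (a' i) : P) := by
      funext i
      show (ℓ ^ B : ℕ) • tor.mkQ (act s (g i)) = _
      rw [← map_nsmul, ha' i, map_nsmul, ← Nat.cast_pow, Pi.smul_apply, Nat.cast_smul_eq_nsmul]
    rw [e, Ideal.span_singleton_pow]
    exact Submodule.smul_mem_smul (Ideal.mem_span_singleton_self _) trivial
  rw [hk (B + d + k) (by omega), Nat.add_sub_cancel, Ideal.span_singleton_pow,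
    Submodule.ideal_span_singleton_smul] at hx
  obtain ⟨u, ⟨-, v, rfl⟩, hu⟩ := hx
  have hu' : ((ℓ : ℤ) ^ (B + d)) • G v = (ℓ ^ B : ℕ) • G s := hu
  have hGs : G s = G ((ℓ ^ d) • v) := by
    rw [← sub_eq_zero]
    refine (smul_eq_zero.mp ?_).resolve_left (pow_ne_zero B (Int.natCast_ne_zero.mpr hℓ))
    rw [smul_sub, map_nsmul, ← Nat.cast_pow, Nat.cast_smul_eq_nsmul, Nat.cast_smul_eq_nsmul,
      ← hu', ← mul_nsmul', ← pow_add, ← Nat.cast_pow, Nat.cast_smul_eq_nsmul, sub_self]
  refine hs (ev v) ?_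
  rw [← sub_eq_zero, ← map_nsmul, ← map_sub]
  exact hker _ (by rw [map_sub, hGs, sub_self])

end Fermat.Agent.Mazur.Two
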