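import Fermat.Agent.Mazur.Odd.OfComponent
import Fermat.Agent.Mazur.Component.Make
import Mathlib.NumberTheory.Padics.ProperSpace
import Mathlib.Topology.MetricSpace.Pseudo.Pi

/-!
# The line at two in an Eisenstein component

The Hecke core of the kernel of reduction at two cuts out, in the plane of a component not entirely
inside it, a line over the coefficient field: inertia is cyclotomic on it and trivial on the
quotient, Frobenius satisfies the congruence relation modulo it, and its lattice points give, up to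
a bounded power of two, all classes of the component lying in the core.
-/

set_option autoImplicit false
set_option linter.style.haveILetI false

noncomputable section

open ModularCurve

namespace Fermat.Agent.Mazur

open Fermat.Agent.FlatTangent Component

/-- A decreasing sequence of non-empty periodic subsets of a finite `ℤ_ℓ`-module has a common
point. -/
theorem exists_mem_of_periodic {ℓ : ℕ} [hℓ : Fact ℓ.Prime] {M : Type*} [AddCommGroup M]
    [Module ℤ_[ℓ] M] [Module.Finite ℤ_[ℓ] M] (S : ℕ → Set M) (hne : ∀ R, (S R).Nonempty)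
    (hanti : ∀ R, S (R + 1) ⊆ S R)
    (hper : ∀ R, ∃ m : ℕ, ∀ v ∈ S R, ∀ z, v + (ℓ : ℤ_[ℓ]) ^ m • z ∈ S R) :
    ∃ v, ∀ R, v ∈ S R := by
  obtain ⟨k, f, hf⟩ := Module.Finite.exists_fin' ℤ_[ℓ] M
  have hcl : ∀ R, IsClosed (f ⁻¹' S R) := by
    intro R
    obtain ⟨m, hm⟩ := hper R
    rw [← isOpen_compl_iff, Metric.isOpen_iff]
    intro y hy
    have hℓ0 : (0 : ℝ) < (ℓ : ℝ) := Nat.cast_pos.mpr hℓ.out.pos
    refine ⟨(ℓ : ℝ) ^ (-(m : ℤ)), zpow_pos hℓ0 _, fun y' hy' hmem => hy ?_⟩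
    rw [Metric.mem_ball] at hy'
    have hdvd : ∀ i, ∃ z : ℤ_[ℓ], y i - y' i = (ℓ : ℤ_[ℓ]) ^ m * z := fun i => by
      obtain ⟨z, hz⟩ := Ideal.mem_span_singleton'.mp
        ((PadicInt.norm_le_pow_iff_mem_span_pow (y i - y' i) m).mp (by
          rw [← dist_eq_norm, dist_comm]
          exact (dist_le_pi_dist y' y i).trans hy'.le))
      exact ⟨z, by rw [← hz, mul_comm]⟩
    choose z hz using hdvd
    have hyz : y = y' + (ℓ : ℤ_[ℓ]) ^ m • z :=
      funext fun i => by rw [Pi.add_apply, Pi.smul_apply, smul_eq_mul, ← hz, add_sub_cancel]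
    show f y ∈ S R
    rw [hyz, map_add, map_smul]
    exact hm _ hmem _
  obtain ⟨y, hy⟩ := IsCompact.nonempty_iInter_of_sequence_nonempty_isCompact_isClosed
    (fun R => f ⁻¹' S R) (fun R => Set.preimage_mono (hanti R))
    (fun R => (hne R).preimage hf) (hcl 0).isCompact hcl
  exact ⟨f y, fun R => Set.mem_iInter.mp hy R⟩

variable (p : Nat.Primes) [NeZero (p : ℕ)]

/-- The largest Hecke stable part of the kernel of reduction at two. -/
def redCore : AddSubgroup (JZero (p : ℕ)) :=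
  ⨅ t : HeckeAlg, (redKer p 2).comap (heckeOp (p : ℕ) t)

variable {p}

theorem mem_redCore {x : JZero (p : ℕ)} :
    x ∈ redCore p ↔ ∀ t, heckeOp (p : ℕ) t x ∈ redKer p 2 := by
  simp only [redCore, AddSubgroup.mem_iInf, AddSubgroup.mem_comap]

theorem heckeOp_mul (N : ℕ) [NeZero N] (s t : HeckeAlg) (x : JZero N) :
    heckeOp N (s * t) x = heckeOp N s (heckeOp N t x) :=
  letI := heckeModuleBar N
  mul_smul s t x

theorem heckeOp_mem_redCore (s : HeckeAlg) {x : JZero (p : ℕ)} (hx : x ∈ redCore p) :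
    heckeOp (p : ℕ) s x ∈ redCore p :=
  mem_redCore.mpr fun t => by rw [← heckeOp_mul]; exact mem_redCore.mp hx _

theorem redCore_le {x : JZero (p : ℕ)} (hx : x ∈ redCore p) : x ∈ redKer p 2 := by
  have h := mem_redCore.mp hx 1
  rwa [show heckeOp (p : ℕ) 1 x = x from
    letI := heckeModuleBar (p : ℕ); one_smul HeckeAlg x] at h

theorem inertia_sub_mem_redCore {σ : Gal} (hσ : σ ∈ inert 2) (x : JZero (p : ℕ)) :
    σ • x - x ∈ redCore p :=
  mem_redCore.mpr fun t => by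
    rw [map_sub, heckeOp_smul]
    exact (pointSetting (p := p) 2).red_inert σ hσ _

theorem heckeOp_gen (N : ℕ) [NeZero N] (q : Nat.Primes) (x : JZero N) :
    heckeOp N (heckeGen q) x = heckeOperatorBar N q x :=
  letI := heckeModuleBar N
  heckeModuleBar_heckeGen_smul (HK.Corr.heckeOperatorsCommuteBar _) _ _

theorem frob_quad_mem_redCore (hp : (p : ℕ) ≠ 2) {F : Gal} (hF : (plc 2).IsFrobeniusAt F 2)
    (x : JZero (p : ℕ)) :
    F • F • x - heckeOp (p : ℕ) (heckeGen ⟨2, Nat.prime_two⟩) (F • x) + 2 • x ∈ redCore p :=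
  mem_redCore.mpr fun t => by
    rw [map_add, map_sub, map_nsmul, heckeOp_smul, heckeOp_smul, ← heckeOp_mul, mul_comm,
      heckeOp_mul, heckeOp_smul]
    convert frob_quad_mem_redKer hp.symm hF (heckeOp (p : ℕ) t x) using 3
    exact heckeOp_gen _ _ _

namespace Component

variable (X : Component (p : ℕ) 2)

theorem padic_smul_def (c : ℤ_[2]) (w : X.W) :
    c • w = algebraMap ℚ_[2] X.K (c : ℚ_[2]) • w := by
  rw [IsScalarTower.algebraMap_smul, padic_smul_eq]

theorem pt_padic_smul (R : ℕ) (c : ℤ_[2]) (v : X.lat) :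
    X.pt R (c • v) = c.appr R • X.pt R v := by
  obtain ⟨z, hz⟩ := Ideal.mem_span_singleton.mp (PadicInt.appr_spec R c)
  rw [← map_nsmul, ← sub_eq_zero, ← map_sub, X.pt_eq_zero_iff]
  refine ⟨z • v, ?_⟩
  rw [← Nat.cast_smul_eq_nsmul ℤ_[2] (c.appr R), ← sub_smul, hz, smul_smul]

theorem nsmul_pt_add (R k : ℕ) (v : X.lat) : 2 ^ k • X.pt (R + k) v = X.pt R v := by
  induction k with
  | zero => rw [pow_zero, one_smul, add_zero]
  | succ k ih => rw [pow_succ, mul_smul, ← Nat.add_assoc, X.nsmul_pt_succ, ih]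

/-- A scalar carries the lattice into itself after multiplication by a power of two. -/
theorem exists_pow_mul_smul_mem (z : X.K) :
    ∃ k : ℕ, ∀ x ∈ X.lat, ((2 : X.K) ^ k * z) • x ∈ X.lat := by
  obtain ⟨k, hk⟩ := X.hecke_span z
  rw [Nat.cast_ofNat] at hk
  refine ⟨k, fun x hx => ?_⟩
  generalize (2 : X.K) ^ k * z = y at hk ⊢
  induction hk using Submodule.span_induction with
  | mem y hy =>
    obtain ⟨t, rfl⟩ := hy
    obtain ⟨s, rfl⟩ := heckeEvalForms_surjective' (p : ℕ) t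
    exact X.hecke_mem s x hx
  | zero => rw [zero_smul]; exact X.lat.zero_mem
  | add a b _ _ ha hb => rw [add_smul]; exact X.lat.add_mem ha hb
  | smul c a _ ha => rw [smul_assoc]; exact X.lat.smul_mem c ha

/-- Multiplication by a non-zero scalar has bounded cokernel on the lattice. -/
theorem exists_pow_smul_eq {c : X.K} (hc : c ≠ 0) :
    ∃ k : ℕ, ∀ x ∈ X.lat, ∃ y ∈ X.lat, 2 ^ k • x = c • y := by
  obtain ⟨k, hk⟩ := X.exists_pow_mul_smul_mem c⁻¹
  refine ⟨k, fun x hx => ⟨_, hk x hx, ?_⟩⟩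
  rw [smul_smul, mul_left_comm, mul_inv_cancel₀ hc, mul_one,
    show (2 : X.K) ^ k = ((2 ^ k : ℕ) : X.K) by push_cast; rfl, Nat.cast_smul_eq_nsmul]

/-- The lattice points all of whose classes lie in the core. -/
def redLat : Submodule ℤ_[2] X.lat where
  carrier := {v | ∀ R, X.pt R v ∈ redCore p}
  zero_mem' R := by rw [map_zero]; exact zero_mem _
  add_mem' ha hb R := by rw [map_add]; exact add_mem (ha R) (hb R)
  smul_mem' c v hv R := by rw [pt_padic_smul]; exact nsmul_mem (hv R) _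

theorem mem_redLat {v : X.lat} : v ∈ X.redLat ↔ ∀ R, X.pt R v ∈ redCore p := Iff.rfl

theorem hecke_mem_redLat (s : HeckeAlg) {v : X.lat} (hv : v ∈ X.redLat) :
    (⟨_, X.hecke_mem s v v.2⟩ : X.lat) ∈ X.redLat := fun R => by
  rw [← X.hecke_pt]; exact heckeOp_mem_redCore s (hv R)

theorem mem_redLat_of_pow {k : ℕ} {v : X.lat} (h : 2 ^ k • v ∈ X.redLat) : v ∈ X.redLat :=
  fun R => by
    rw [← X.nsmul_pt_add R k, ← map_nsmul]
    exact h (R + k)

/-- The span of the lattice points whose classes lie in the core. -/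
def redSpan : AddSubgroup X.W where
  carrier := {w | ∃ (k : ℕ) (v : X.lat), v ∈ X.redLat ∧ 2 ^ k • w = v}
  zero_mem' := ⟨0, 0, zero_mem _, by rw [smul_zero]; rfl⟩
  add_mem' := by
    rintro a b ⟨i, u, hu, ha⟩ ⟨j, v, hv, hb⟩
    refine ⟨i + j, 2 ^ j • u + 2 ^ i • v, add_mem (nsmul_mem hu _) (nsmul_mem hv _), ?_⟩
    rw [nsmul_add, pow_add, mul_nsmul, ha, mul_nsmul', hb]
    rfl
  neg_mem' := by
    rintro a ⟨i, u, hu, ha⟩
    exact ⟨i, -u, neg_mem hu, by rw [smul_neg, ha]; rfl⟩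

theorem smul_mem_redSpan (z : X.K) {w : X.W} (hw : w ∈ X.redSpan) : z • w ∈ X.redSpan := by
  obtain ⟨i, u, hu, hw⟩ := hw
  obtain ⟨k, hk⟩ := X.hecke_span z
  have key : ∀ y ∈ Submodule.span ℤ_[2] (Set.range X.charT), ∃ v ∈ X.redLat,
      (v : X.W) = y • (u : X.W) := by
    intro y hy
    induction hy using Submodule.span_induction with
    | mem y hy =>
      obtain ⟨t, rfl⟩ := hy
      obtain ⟨s, rfl⟩ := heckeEvalForms_surjective' (p : ℕ) t
      exact ⟨_, X.hecke_mem_redLat s hu, rfl⟩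
    | zero => exact ⟨0, zero_mem _, (zero_smul X.K (u : X.W)).symm⟩
    | add a b _ _ ha hb =>
      obtain ⟨va, hva, ea⟩ := ha
      obtain ⟨vb, hvb, eb⟩ := hb
      exact ⟨va + vb, add_mem hva hvb, by rw [add_smul, ← ea, ← eb]; rfl⟩
    | smul c a _ ha =>
      obtain ⟨va, hva, ea⟩ := ha
      exact ⟨c • va, X.redLat.smul_mem c hva, by rw [smul_assoc, ← ea]; rfl⟩
  obtain ⟨v, hv, hvz⟩ := key _ hk
  refine ⟨k + i, v, hv, ?_⟩
  rw [hvz, ← hw, mul_smul, pow_add, mul_nsmul', ← smul_comm z (2 ^ i : ℕ), ← Nat.cast_pow,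
    Nat.cast_smul_eq_nsmul]

/-- The line at two. -/
def redLine : Submodule X.K X.W :=
  { X.redSpan with smul_mem' := fun z _ hw => X.smul_mem_redSpan z hw }

theorem mem_redLine_iff {w : X.W} :
    w ∈ X.redLine ↔ ∃ (k : ℕ) (v : X.lat), v ∈ X.redLat ∧ 2 ^ k • w = v := Iff.rfl

theorem coe_mem_redLine {v : X.lat} : (v : X.W) ∈ X.redLine ↔ v ∈ X.redLat := by
  refine ⟨fun ⟨k, u, hu, he⟩ => X.mem_redLat_of_pow (k := k) ?_,
    fun h => ⟨0, v, h, by rw [pow_zero, one_smul]⟩⟩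
  rwa [show 2 ^ k • v = u from Subtype.ext he]

theorem mem_redLine_of_forall {w : X.W} (h : ∀ (v : X.lat) (k : ℕ), 2 ^ k • w = v →
    ∀ R, X.pt R v ∈ redCore p) : w ∈ X.redLine := by
  obtain ⟨k, hk⟩ := X.exists_nsmul_mem w
  exact ⟨k, ⟨_, hk⟩, h ⟨_, hk⟩ k rfl, rfl⟩

theorem sub_mem_redLine {σ : Gal} (hσ : σ ∈ inert 2) (w : X.W) : X.rep σ w - w ∈ X.redLine := by
  obtain ⟨k, hk⟩ := X.exists_nsmul_mem w
  refine ⟨k, ⟨_, X.rep_mem σ _ hk⟩ - ⟨_, hk⟩, fun R => ?_,
    by rw [nsmul_sub, ← map_nsmul]; rfl⟩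
  rw [map_sub, ← X.smul_pt R σ ⟨_, hk⟩]
  exact inertia_sub_mem_redCore hσ _

theorem quad_mem_redLine (hp : (p : ℕ) ≠ 2) {F : Gal} (hF : (plc 2).IsFrobeniusAt F 2)
    (w : X.W) : X.rep F (X.rep F w) - X.eigℓ • X.rep F w + 2 • w ∈ X.redLine := by
  obtain ⟨k, hk⟩ := X.exists_nsmul_mem w
  set v : X.lat := ⟨_, hk⟩
  set u : X.lat := ⟨_, X.rep_mem F _ v.2⟩
  refine ⟨k, (⟨_, X.rep_mem F _ u.2⟩ : X.lat) -
    ⟨_, X.hecke_mem (heckeGen ⟨2, Nat.prime_two⟩) u u.2⟩ + 2 • v, fun R => ?_, ?_⟩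
  · rw [map_add, map_sub, map_nsmul, ← X.smul_pt R F u, ← X.hecke_pt R, ← X.smul_pt R F v]
    exact frob_quad_mem_redCore hp hF _
  · show _ = X.rep F (X.rep F (2 ^ k • w)) - X.eigℓ • X.rep F (2 ^ k • w) + 2 • 2 ^ k • w
    rw [map_nsmul, map_nsmul, smul_comm X.eigℓ, smul_comm 2 (2 ^ k), ← nsmul_sub, ← nsmul_add]

theorem det_eq (g : Gal) :
    LinearMap.det (X.rep g) = algebraMap ℚ_[2] X.K (GAL.cycQ 2 g : ℚ_[2]) :=
  (X.det_rep g).trans (IsScalarTower.algebraMap_apply ℤ_[2] ℚ_[2] X.K _)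

/-- Not all classes of the component lie in the core. -/
def NotRed : Prop := ∃ (R : ℕ) (v : X.lat), X.pt R v ∉ redCore p

theorem redLine_ne_top (hX : X.NotRed) : X.redLine ≠ ⊤ := by
  obtain ⟨R, v, hv⟩ := hX
  exact fun h => hv (X.coe_mem_redLine.mp (h ▸ trivial) R)

theorem exists_inert_cycQ_ne_one : ∃ σ ∈ inert 2, GAL.cycQ 2 σ ≠ 1 := by
  obtain ⟨σ, hσ, hσk⟩ := exists_inert_cycExp 2 2 (k := 3) (by norm_num)
  refine ⟨σ, hσ, fun h => ?_⟩
  obtain ⟨y, hy⟩ := cycQ_modEq 2 hσk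
  rw [h] at hy
  have h2 := congrArg (PadicInt.toZModPow (p := 2) 2) hy
  rw [map_one, map_add, map_mul, map_pow, map_natCast, map_natCast,
    show ((2 : ℕ) : ZMod (2 ^ 2)) ^ 2 = 0 from by decide, zero_mul, add_zero] at h2
  exact absurd h2 (by decide)

theorem redLine_ne_bot : X.redLine ≠ ⊥ := by
  intro h
  obtain ⟨σ, hσ, hne⟩ := exists_inert_cycQ_ne_one
  have h1 : X.rep σ = 1 := LinearMap.ext fun w => by
    have := X.sub_mem_redLine hσ w
    rwa [h, Submodule.mem_bot, sub_eq_zero] at this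
  have hd := X.det_eq σ
  rw [h1, map_one, eq_comm, map_eq_one_iff _ (algebraMap ℚ_[2] X.K).injective] at hd
  exact hne (PadicInt.ext (hd.trans PadicInt.coe_one.symm))

theorem finrank_redLine (hX : X.NotRed) : Module.finrank X.K X.redLine = 1 := by
  haveI : FiniteDimensional X.K X.W :=
    Module.finite_of_finrank_pos (by rw [X.finrank_two]; norm_num)
  have h1 : 1 ≤ Module.finrank X.K X.redLine :=
    Submodule.one_le_finrank_iff.mpr X.redLine_ne_bot
  have h2 := Submodule.finrank_lt (X.redLine_ne_top hX)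
  rw [X.finrank_two] at h2
  omega

/-- A Galois element preserving the line, in an adapted basis. -/
theorem exists_eigen_redLine (hX : X.NotRed) {g : Gal}
    (hst : ∀ x ∈ X.redLine, X.rep g x ∈ X.redLine) : ∃ μ ν : X.K,
    μ * ν = algebraMap ℚ_[2] X.K (GAL.cycQ 2 g : ℚ_[2]) ∧
      (∀ x ∈ X.redLine, X.rep g x = μ • x) ∧ ∀ w, X.rep g w - ν • w ∈ X.redLine := by
  haveI : FiniteDimensional X.K X.W :=
    Module.finite_of_finrank_pos (by rw [X.finrank_two]; norm_num)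
  obtain ⟨⟨v, hv⟩, hv0, hspan⟩ := finrank_eq_one_iff'.mp (X.finrank_redLine hX)
  have hv0' : v ≠ 0 := fun h => hv0 (Subtype.ext h)
  have hLv : ∀ x ∈ X.redLine, ∃ c : X.K, c • v = x := fun x hx => by
    obtain ⟨c, hc⟩ := hspan ⟨x, hx⟩
    exact ⟨c, congrArg Subtype.val hc⟩
  obtain ⟨u, -, hu⟩ := SetLike.exists_of_lt (lt_top_iff_ne_top.mpr (X.redLine_ne_top hX))
  have hli : LinearIndependent X.K ![v, u] := LinearIndependent.pair_iff.mpr fun s t h => by
    have ht : t = 0 := by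
      by_contra ht
      refine hu ?_
      have : u = t⁻¹ • (-(s • v)) := by
        rw [← eq_neg_of_add_eq_zero_right h, inv_smul_smul₀ ht]
      rw [this]
      exact X.redLine.smul_mem _ (neg_mem (X.redLine.smul_mem _ hv))
    rw [ht, zero_smul, add_zero] at h
    exact ⟨(smul_eq_zero.mp h).resolve_right hv0', ht⟩
  let b := basisOfLinearIndependentOfCardEqFinrank hli (by rw [X.finrank_two]; rfl)
  have hb0 : b 0 = v := by simp [b]
  have hb1 : b 1 = u := by simp [b]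
  obtain ⟨μ, hμ⟩ := hLv _ (hst v hv)
  have hcoord : ∀ w, w = b.repr w 0 • v + b.repr w 1 • u := fun w => by
    conv_lhs => rw [← b.sum_repr w, Fin.sum_univ_two, hb0, hb1]
  refine ⟨μ, b.repr (X.rep g u) 1, ?_, fun x hx => ?_, fun w => ?_⟩
  · rw [← X.det_eq, ← LinearMap.det_toMatrix b, Matrix.det_fin_two]
    simp only [LinearMap.toMatrix_apply, hb0, hb1]
    rw [← hμ, map_smul, ← hb0, b.repr_self]
    simp
  · obtain ⟨c, rfl⟩ := hLv x hx
    rw [map_smul, ← hμ, smul_comm]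
  · have e : X.rep g w - b.repr (X.rep g u) 1 • w =
        b.repr w 0 • (X.rep g v - b.repr (X.rep g u) 1 • v) +
          b.repr w 1 • (b.repr (X.rep g u) 0 • v) := by
      generalize hν : b.repr (X.rep g u) 1 = ν
      generalize hα : b.repr (X.rep g u) 0 = α
      have hgu : X.rep g u = α • v + ν • u := by rw [← hν, ← hα]; exact hcoord _
      conv_lhs => rw [hcoord w, map_add, map_smul, map_smul, hgu]
      module
    rw [e]
    exact add_mem (X.redLine.smul_mem _ (sub_mem (hst v hv) (X.redLine.smul_mem _ hv)))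
      (X.redLine.smul_mem _ (X.redLine.smul_mem _ hv))

theorem inert_stable {σ : Gal} (hσ : σ ∈ inert 2) {x : X.W} (hx : x ∈ X.redLine) :
    X.rep σ x ∈ X.redLine := by
  simpa using add_mem (X.sub_mem_redLine hσ x) hx

/-- On the line inertia at two is cyclotomic. -/
theorem inert_redLine (hX : X.NotRed) {σ : Gal} (hσ : σ ∈ inert 2) {x : X.W}
    (hx : x ∈ X.redLine) : X.rep σ x = GAL.cycQ 2 σ • x := by
  obtain ⟨μ, ν, hμν, hL, hQ⟩ := X.exists_eigen_redLine hX fun y hy => X.inert_stable hσ hy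
  obtain ⟨w, -, hw⟩ := SetLike.exists_of_lt (lt_top_iff_ne_top.mpr (X.redLine_ne_top hX))
  have hν : ν = 1 := by
    by_contra hν
    refine hw ((X.redLine.smul_mem_iff (sub_ne_zero.mpr (Ne.symm hν))).mp ?_)
    have := sub_mem (hQ w) (X.sub_mem_redLine hσ w)
    rwa [sub_sub_sub_cancel_left, ← one_smul X.K w, smul_smul, ← sub_smul, mul_one] at this
  rw [hL x hx, padic_smul_def, ← hμν, hν, mul_one]

/-- The decomposition group at two preserves the line. -/
theorem dec_stable (hX : X.NotRed) {g : Gal} (hg : g ∈ dec 2) {x : X.W}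
    (hx : x ∈ X.redLine) : X.rep g x ∈ X.redLine := by
  obtain ⟨σ, hσ, hne⟩ := exists_inert_cycQ_ne_one
  have hc : algebraMap ℚ_[2] X.K (GAL.cycQ 2 σ : ℚ_[2]) - 1 ≠ 0 := fun h => hne (PadicInt.ext (by
    rw [sub_eq_zero, map_eq_one_iff _ (algebraMap ℚ_[2] X.K).injective] at h
    exact h.trans PadicInt.coe_one.symm))
  set u := (algebraMap ℚ_[2] X.K (GAL.cycQ 2 σ : ℚ_[2]) - 1)⁻¹ • x with hu
  have hx' : x = X.rep σ u - u := by
    rw [hu, map_smul, ← smul_sub, X.inert_redLine hX hσ hx, padic_smul_def]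
    nth_rw 3 [← one_smul X.K x]
    rw [← sub_smul, inv_smul_smul₀ hc]
  have h := X.sub_mem_redLine (Galois.inertia_normal_in_decomposition hσ hg) (X.rep g u)
  rwa [← Module.End.mul_apply (X.rep (g * σ * g⁻¹)), ← map_mul, inv_mul_cancel_right, map_mul,
    Module.End.mul_apply, ← map_sub, ← hx'] at h

/-- The inverse of Frobenius on the line, up to the level. -/
theorem frobInv_redLine (hp : (p : ℕ) ≠ 2) (hX : X.NotRed) {F : Gal}
    (hF : (plc 2).IsFrobeniusAt F 2) {R : ℕ} (hfix : ∀ ζ : Qb, ζ ^ 2 ^ R = 1 → F ζ = ζ) {x : X.W}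
    (hx : x ∈ X.redLine) (hxΛ : x ∈ X.lat) :
    ∃ y ∈ X.lat, X.rep F⁻¹ (X.rep F⁻¹ x) - X.eigℓ • X.rep F⁻¹ x + 2 • x = 2 ^ R • y := by
  obtain ⟨μ, ν, hμν, hL, hQ⟩ := X.exists_eigen_redLine hX
    fun y hy => X.dec_stable hX hF.mem_decompositionSubgroup hy
  have hchar : ν * ν - X.eigℓ * ν + 2 = 0 := by
    obtain ⟨w, -, hw⟩ := SetLike.exists_of_lt (lt_top_iff_ne_top.mpr (X.redLine_ne_top hX))
    by_contra hne
    refine hw ((X.redLine.smul_mem_iff hne).mp ?_)
    have h1 := X.quad_mem_redLine hp hF w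
    have h2 : X.rep F (X.rep F w) - (ν * ν) • w ∈ X.redLine := by
      have := add_mem (hQ (X.rep F w)) (X.redLine.smul_mem ν (hQ w))
      rwa [smul_sub, smul_smul, sub_add_sub_cancel] at this
    have h3 : X.eigℓ • X.rep F w - (X.eigℓ * ν) • w ∈ X.redLine := by
      have := X.redLine.smul_mem X.eigℓ (hQ w)
      rwa [smul_sub, smul_smul] at this
    have h4 := add_mem (sub_mem h1 h2) h3
    convert h4 using 1
    rw [add_smul, sub_smul, ← Nat.cast_smul_eq_nsmul X.K 2, Nat.cast_ofNat]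
    abel
  set δ := algebraMap ℚ_[2] X.K (GAL.cycQ 2 F : ℚ_[2]) with hδ
  set δ' := algebraMap ℚ_[2] X.K (GAL.cycQ 2 F⁻¹ : ℚ_[2]) with hδ'
  have hdd : δ' * δ = 1 := by
    rw [hδ, hδ', ← map_mul, ← PadicInt.coe_mul, ← map_mul, inv_mul_cancel, map_one,
      PadicInt.coe_one, map_one]
  have hμ : μ * (δ' * ν) = 1 := by rw [mul_left_comm, hμν, hdd]
  have hinv : ∀ y ∈ X.redLine, X.rep F⁻¹ y = (δ' * ν) • y := fun y hy => by
    have e : y = X.rep F ((δ' * ν) • y) := by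
      rw [hL _ (X.redLine.smul_mem _ hy), smul_smul, hμ, one_smul]
    conv_lhs => rw [e, ← Module.End.mul_apply, ← map_mul, inv_mul_cancel, map_one,
      Module.End.one_apply]
  obtain ⟨z, hz⟩ := cycQ_modEq 2 (R := R) (k := 1) (σ := F⁻¹) fun ζ hζ => by
    conv_lhs => rw [← hfix ζ hζ, ← AlgEquiv.mul_apply, inv_mul_cancel, AlgEquiv.one_apply]
    rw [pow_one]
  have hzK : δ' = 1 + algebraMap ℚ_[2] X.K (z : ℚ_[2]) * ((2 ^ R : ℕ) : X.K) := by
    rw [hδ', hz, PadicInt.coe_add, PadicInt.coe_mul, PadicInt.coe_pow, PadicInt.coe_natCast,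
      PadicInt.coe_natCast, map_add, map_mul, map_pow, map_natCast, map_natCast, Nat.cast_one,
      Nat.cast_pow, mul_comm]
  refine ⟨z • (GAL.cycQ 2 F • X.rep F⁻¹ (X.rep F⁻¹ x) - 2 • x), X.lat.smul_mem z (X.lat.sub_mem
    (X.lat.smul_mem _ (X.rep_mem _ _ (X.rep_mem _ _ hxΛ))) (X.lat.toAddSubgroup.nsmul_mem hxΛ 2)),
    ?_⟩
  rw [hinv x hx, hinv _ (X.redLine.smul_mem _ hx), padic_smul_def, padic_smul_def,
    ← Nat.cast_smul_eq_nsmul X.K 2, ← Nat.cast_smul_eq_nsmul X.K (2 ^ R), ← hδ]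
  simp only [smul_smul, ← sub_smul, ← add_smul]
  congr 1
  have hzK' : algebraMap ℚ_[2] X.K (z : ℚ_[2]) * ((2 ^ R : ℕ) : X.K) = δ' - 1 := by
    rw [hzK]; ring
  rw [Nat.cast_ofNat]
  linear_combination (δ' : X.K) * hchar + (-(δ * δ' * δ' * ν * ν - 2)) * hzK' +
    (-(δ' * ν * ν) * (δ' - 1)) * hdd

/-- Up to a bounded power of two, the classes in the core come from the line. -/
theorem exists_conn_redLine : ∃ d : ℕ, ∀ (R : ℕ) (v : X.lat), X.pt R v ∈ redCore p →
    ∃ u ∈ X.redLat, X.pt R (2 ^ d • v) = X.pt R u := by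
  have hmono : ∀ (R j : ℕ) (v : X.lat), X.pt (R + j) v ∈ redCore p → X.pt R v ∈ redCore p :=
    fun R j v h => by rw [← X.nsmul_pt_add R j]; exact nsmul_mem h _
  obtain ⟨n, hn⟩ : ∃ n, ∀ v, X.pt n v ∈ redCore p → ∃ u ∈ X.redLat, ∃ z, v = u + 2 • z := by
    by_contra h
    push Not at h
    obtain ⟨v, hv⟩ := exists_mem_of_periodic (ℓ := 2)
      (fun R => {v : X.lat | X.pt R v ∈ redCore p ∧ ∀ u ∈ X.redLat, ∀ z, v ≠ u + 2 • z})
      (fun R => by obtain ⟨v, h1, h2⟩ := h R; exact ⟨v, h1, h2⟩)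
      (fun R v hv => ⟨hmono R 1 v hv.1, hv.2⟩)
      (fun R => ⟨R + 1, fun v hv z => by
        have e : ((2 : ℕ) : ℤ_[2]) ^ (R + 1) • z = 2 ^ (R + 1) • z := by
          rw [← Nat.cast_pow, Nat.cast_smul_eq_nsmul]
        rw [e]
        refine ⟨?_, fun u hu z' he => hv.2 u hu (z' - 2 ^ R • z) ?_⟩
        · rw [map_add, map_nsmul, pow_succ', mul_nsmul', X.pow_smul_pt, smul_zero, add_zero]
          exact hv.1
        · rw [nsmul_sub, ← mul_nsmul', ← pow_succ', ← add_sub_assoc, ← he, add_sub_cancel_right]⟩)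
    exact (hv 0).2 v (fun R => (hv R).1) 0 (by rw [smul_zero, add_zero])
  have key : ∀ (j : ℕ) (v : X.lat), X.pt (n + j) v ∈ redCore p →
      ∃ u ∈ X.redLat, ∃ z, v = u + 2 ^ (j + 1) • z := by
    intro j
    induction j with
    | zero => intro v hv; simpa using hn v hv
    | succ j ih =>
      intro v hv
      obtain ⟨u, hu, z, rfl⟩ := hn v (hmono n (j + 1) v hv)
      rw [map_add, add_mem_cancel_left (hu _), map_nsmul, ← Nat.add_assoc, X.nsmul_pt_succ] at hv
      obtain ⟨u', hu', z', rfl⟩ := ih z hv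
      refine ⟨u + 2 • u', add_mem hu (nsmul_mem hu' _), z', ?_⟩
      rw [nsmul_add, ← add_assoc, ← mul_nsmul', ← pow_succ']
  refine ⟨n, fun R v hv => ?_⟩
  rcases le_total R n with hR | hR
  · refine ⟨0, zero_mem _, ?_⟩
    obtain ⟨i, rfl⟩ := Nat.exists_eq_add_of_le hR
    rw [map_zero, pow_add, mul_comm, mul_nsmul', map_nsmul, map_nsmul, X.pow_smul_pt, smul_zero]
  · obtain ⟨j, rfl⟩ := Nat.exists_eq_add_of_le hR
    obtain ⟨u, hu, z, rfl⟩ := key j v hv
    refine ⟨2 ^ n • u, nsmul_mem hu _, ?_⟩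
    rw [nsmul_add, map_add, ← mul_nsmul', ← pow_add, ← Nat.add_assoc, add_eq_left, map_nsmul,
      pow_succ', mul_nsmul', X.pow_smul_pt, smul_zero]

end Component

end Fermat.Agent.Mazur
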