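import Fermat.Agent.Mazur.Two.Count
import Fermat.Agent.Mazur.Descent.Unit
import Mathlib.Algebra.Category.Grp.Injective

/-!
# The local condition of the descent at two

For a module `M` with a subgroup `C` (its connected part at `ℓ`), a cocycle satisfies the condition
if it is `C`-valued on inertia and every character turns it into the Kummer cocycle of a unit.
-/

set_option autoImplicit false

noncomputable section

namespace Fermat.Agent.Mazur.Two

open Descent FlatTangent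

theorem exists_additive_root (n : ℕ) (hn : 0 < n) (a : Additive Qbˣ) :
    ∃ b : Additive Qbˣ, n • b = a := by
  obtain ⟨z, hz⟩ := IsAlgClosed.exists_pow_nat_eq ((Additive.toMul a : Qbˣ) : Qb) hn
  have hz0 : z ≠ 0 := fun h => (Additive.toMul a).ne_zero (by rw [← hz, h, zero_pow hn.ne'])
  refine ⟨Additive.ofMul (Units.mk0 z hz0), ?_⟩
  apply Additive.toMul.injective
  rw [toMul_nsmul]
  exact Units.ext (by simpa using hz)

/-- The multiplicative group of `ℚ̄` is divisible. -/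
@[instance_reducible]
def divisibleUnitsQb : DivisibleBy (Additive Qbˣ) ℤ :=
  @AddCommGroup.divisibleByIntOfSMulTopEqTop _ _ fun {n} hn => by
    rw [eq_top_iff]
    intro a _
    obtain ⟨b, hb⟩ := exists_additive_root n.natAbs (Int.natAbs_pos.mpr hn) a
    rcases Int.natAbs_eq n with h | h
    · exact ⟨b, trivial, by
        show n • b = a
        rw [h, natCast_zsmul, hb]⟩
    · exact ⟨-b, trivial, by
        show n • (-b) = a
        rw [h, neg_zsmul, zsmul_neg, neg_neg, natCast_zsmul, hb]⟩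

theorem exists_character_extension {M N : Type} [AddCommGroup M] [AddCommGroup N] (f : M →+ N)
    (hf : Function.Injective f) (g : M →+ Additive Qbˣ) :
    ∃ h : N →+ Additive Qbˣ, h.comp f = g := by
  have := divisibleUnitsQb
  exact (Module.Baer.of_divisible (Additive Qbˣ)).extension_property_addMonoidHom f hf g

variable (ℓ : ℕ) [Fact ℓ.Prime]

/-- `f` is, on inertia, the Kummer cocycle of a root of a unit. -/
def UnitKummer (f : Gal → Qb) : Prop :=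
  ∃ z, IsUnitRoot ℓ z ∧ ∀ σ ∈ inert ℓ, σ z = f σ * z

variable {ℓ}

theorem isUnitRoot_one : IsUnitRoot ℓ (1 : Qb) :=
  ⟨0, by rw [one_pow]; exact inU_one, veq_one⟩

theorem IsUnitRoot.mul {y z : Qb} (hy : IsUnitRoot ℓ y) (hz : IsUnitRoot ℓ z) :
    IsUnitRoot ℓ (y * z) := by
  obtain ⟨a, ha, hy0⟩ := hy
  obtain ⟨b, hb, hz0⟩ := hz
  refine ⟨a + b, ?_, by simpa using hy0.mul hz0⟩
  rw [mul_pow, pow_add, pow_mul, mul_comm (ℓ ^ a) (ℓ ^ b), pow_mul z]
  exact (ha.pow _).mul (hb.pow _)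

theorem IsUnitRoot.inv {z : Qb} (hz : IsUnitRoot ℓ z) : IsUnitRoot ℓ z⁻¹ := by
  obtain ⟨a, ha, hz0⟩ := hz
  exact ⟨a, by rw [inv_pow]; exact ha.inv, by simpa using hz0.inv⟩

theorem UnitKummer.one : UnitKummer ℓ fun _ => 1 :=
  ⟨1, isUnitRoot_one, fun σ _ => by rw [map_one, mul_one]⟩

theorem UnitKummer.mul {f g : Gal → Qb} (hf : UnitKummer ℓ f) (hg : UnitKummer ℓ g) :
    UnitKummer ℓ fun σ => f σ * g σ := by
  obtain ⟨y, hy, hy'⟩ := hf
  obtain ⟨z, hz, hz'⟩ := hg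
  exact ⟨y * z, IsUnitRoot.mul hy hz, fun σ hσ => by rw [map_mul, hy' σ hσ, hz' σ hσ]; ring⟩

theorem UnitKummer.inv {f : Gal → Qb} (hf : UnitKummer ℓ f) :
    UnitKummer ℓ fun σ => (f σ)⁻¹ := by
  obtain ⟨y, hy, hy'⟩ := hf
  exact ⟨y⁻¹, IsUnitRoot.inv hy, fun σ hσ => by rw [map_inv₀, hy' σ hσ, mul_inv]⟩

theorem UnitKummer.congr {f g : Gal → Qb} (hf : UnitKummer ℓ f)
    (h : ∀ σ ∈ inert ℓ, f σ = g σ) : UnitKummer ℓ g := by
  obtain ⟨y, hy, hy'⟩ := hf
  exact ⟨y, hy, fun σ hσ => by rw [← h σ hσ]; exact hy' σ hσ⟩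

/-- The value of a character as an element of `ℚ̄`. -/
def chVal {M : Type} [AddCommGroup M] (φ : M →+ Additive Qbˣ) (m : M) : Qb :=
  ((Additive.toMul (φ m) : Qbˣ) : Qb)

theorem chVal_add {M : Type} [AddCommGroup M] (φ : M →+ Additive Qbˣ) (a b : M) :
    chVal φ (a + b) = chVal φ a * chVal φ b := by
  simp [chVal, map_add]

theorem chVal_zero {M : Type} [AddCommGroup M] (φ : M →+ Additive Qbˣ) : chVal φ 0 = 1 := by
  simp [chVal]

theorem chVal_neg {M : Type} [AddCommGroup M] (φ : M →+ Additive Qbˣ) (a : M) :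
    chVal φ (-a) = (chVal φ a)⁻¹ := by
  simp [chVal, map_neg]

variable (ℓ) in
/-- The condition: continuity, no ramification outside `S`, values in `C` on inertia at `ℓ`, and
unit Kummer classes under every character. -/
def condAt (S : Finset ℕ) {M : Type} [AddCommGroup M] (ρ : Gal →* AddMonoid.End M)
    (C : AddSubgroup M) : AddSubgroup (Gal → M) where
  carrier := {c | c ∈ Z1 ρ ∧
    (∃ L : IntermediateField ℚ Qb, FiniteDimensional ℚ L ∧ ∀ σ ∈ L.fixingSubgroup, c σ = 0) ∧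
    (∀ q : ℕ, q.Prime → q ∉ S → ∀ A : ValuationSubring Qb, A.LiesOverPrime q →
      ∀ σ ∈ A.inertiaSubgroupIn ℚ, c σ = 0) ∧
    (∀ σ ∈ inert ℓ, c σ ∈ C) ∧
    ∀ φ : M →+ Additive Qbˣ, UnitKummer ℓ fun σ => chVal φ (c σ)}
  zero_mem' := ⟨zero_mem _, ⟨⊥, inferInstance, fun _ _ => rfl⟩, fun _ _ _ _ _ _ _ => rfl,
    fun _ _ => C.zero_mem, fun φ => UnitKummer.one.congr fun σ _ => (chVal_zero φ).symm⟩
  add_mem' := by
    rintro a b ⟨haZ, ⟨L, hL, haL⟩, haq, haC, haφ⟩ ⟨hbZ, ⟨L', hL', hbL⟩, hbq, hbC, hbφ⟩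
    refine ⟨add_mem haZ hbZ, ⟨L ⊔ L', inferInstance, fun σ hσ => ?_⟩, fun q hq hqS A hA σ hσ => ?_,
      fun σ hσ => C.add_mem (haC σ hσ) (hbC σ hσ),
      fun φ => ((haφ φ).mul (hbφ φ)).congr fun σ _ => (chVal_add φ _ _).symm⟩
    · rw [Pi.add_apply, haL σ (IntermediateField.fixingSubgroup_le le_sup_left hσ),
        hbL σ (IntermediateField.fixingSubgroup_le le_sup_right hσ), add_zero]
    · rw [Pi.add_apply, haq q hq hqS A hA σ hσ, hbq q hq hqS A hA σ hσ, add_zero]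
  neg_mem' := by
    rintro a ⟨haZ, ⟨L, hL, haL⟩, haq, haC, haφ⟩
    exact ⟨neg_mem haZ, ⟨L, hL, fun σ hσ => by rw [Pi.neg_apply, haL σ hσ, neg_zero]⟩,
      fun q hq hqS A hA σ hσ => by rw [Pi.neg_apply, haq q hq hqS A hA σ hσ, neg_zero],
      fun σ hσ => C.neg_mem (haC σ hσ),
      fun φ => (haφ φ).inv.congr fun σ _ => (chVal_neg φ _).symm⟩

variable {S : Finset ℕ} {M Y : Type} [AddCommGroup M] [AddCommGroup Y]
  {ρ : Gal →* AddMonoid.End M} {ρ' : Gal →* AddMonoid.End Y}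

theorem condAt_le_Z1 (C : AddSubgroup M) : condAt ℓ S ρ C ≤ Z1 ρ := fun _ hc => hc.1

theorem condAt_map (f : M →+ Y) (hf : ∀ σ m, f (ρ σ m) = ρ' σ (f m)) (C : AddSubgroup M)
    {c : Gal → M} (hc : c ∈ condAt ℓ S ρ C) :
    (fun σ => f (c σ)) ∈ condAt ℓ S ρ' (C.map f) := by
  obtain ⟨hZ, ⟨L, hL, hcL⟩, hcq, hcC, hcφ⟩ := hc
  refine ⟨fun g h => ?_, ⟨L, hL, fun σ hσ => by simp [hcL σ hσ]⟩,
    fun q hq hqS A hA σ hσ => by simp [hcq q hq hqS A hA σ hσ],
    fun σ hσ => AddSubgroup.mem_map_of_mem f (hcC σ hσ), fun φ => hcφ (φ.comp f)⟩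
  show f (c (g * h)) = f (c g) + ρ' g (f (c h))
  rw [hZ g h, map_add, hf]

theorem condAt_comap (f : M →+ Y) (hfi : Function.Injective f) (C : AddSubgroup Y)
    {d : Gal → M} (hd : d ∈ Z1 ρ) (hc : (fun σ => f (d σ)) ∈ condAt ℓ S ρ' C) :
    d ∈ condAt ℓ S ρ (C.comap f) := by
  obtain ⟨-, ⟨L, hL, hcL⟩, hcq, hcC, hcφ⟩ := hc
  refine ⟨hd, ⟨L, hL, fun σ hσ => hfi (by rw [map_zero]; exact hcL σ hσ)⟩,
    fun q hq hqS A hA σ hσ => hfi (by rw [map_zero]; exact hcq q hq hqS A hA σ hσ), hcC, fun φ => ?_⟩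
  obtain ⟨ψ, hψ⟩ := exists_character_extension f hfi φ
  exact (hcφ ψ).congr fun σ _ => by rw [← hψ]; rfl

end Fermat.Agent.Mazur.Two
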