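import Fermat.Agent.Mazur.Two.Local
import Fermat.Agent.Mazur.Descent.Piece
import Fermat.Agent.Mazur.Descent.RatPow
import Fermat.Agent.Galois.Unramified
import Fermat.Agent.Galois.Decomposition
import Fermat.Agent.TW.LocalKummer

/-!
# The Selmer bound at the prime two

A piece of order two with trivial action has no class if its connected part vanishes, and at most
one non-trivial class (the one of `ℚ(√-1)`) otherwise: the class of `2` is not a unit class. The
dévissage then bounds the Selmer group of a residually unipotent module.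
-/

set_option autoImplicit false

noncomputable section

namespace Fermat.Agent.Mazur.Two

open Descent FlatTangent

/-- A rational number with even valuations is a square up to sign. -/
theorem exists_sq_or_neg_sq {a : ℚ} (ha : a ≠ 0)
    (h : ∀ q : ℕ, q.Prime → (2 : ℤ) ∣ padicValRat q a) : ∃ b : ℚ, a = b ^ 2 ∨ a = -b ^ 2 := by
  obtain ⟨u, hu⟩ := exists_nat_pow_of_dvd_factorization
    (Int.natAbs_ne_zero.mpr (Rat.num_ne_zero.mpr ha))
    (fun q hq => (dvd_factorization_num_den (d := 2) hq (h q hq)).1)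
  obtain ⟨v, hv⟩ := exists_nat_pow_of_dvd_factorization a.den_nz
    (fun q hq => (dvd_factorization_num_den (d := 2) hq (h q hq)).2)
  refine ⟨(u : ℚ) / v, ?_⟩
  rcases Int.natAbs_eq a.num with hs | hs
  · left
    conv_lhs => rw [← Rat.num_div_den a, hs, hu, hv]
    push_cast
    rw [div_pow]
  · right
    conv_lhs => rw [← Rat.num_div_den a, hs, hu, hv]
    push_cast
    rw [div_pow, neg_div]

variable (p : ℕ) [hp : Fact p.Prime]

/-- The set of primes allowed to ramify. -/
abbrev badSet : Finset ℕ := {2, p}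

/-- The single local condition of triviality. -/
abbrev inertOne : Unit → Subgroup Gal := fun _ => inert p

variable {p} {M : Type} [AddCommGroup M] {ρ : Gal →* AddMonoid.End M}

theorem B1_eq_bot_of_trivial (hρ : ∀ g, ∀ x : M, ρ g x = x) : B1 ρ = ⊥ := by
  rw [AddSubgroup.eq_bot_iff_forall]
  rintro _ ⟨x, rfl⟩
  exact funext fun g => by rw [dB_apply, hρ, sub_self]; rfl

/-- A class on a module with trivial action killing inertia at two vanishes. -/
theorem eq_zero_of_trivial (hρ : ∀ g, ∀ x : M, ρ g x = x) (C : AddSubgroup M) {c : Gal → M}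
    (hc : c ∈ selW (inertOne p) ρ (condAt 2 (badSet p) ρ C)) (h2 : ∀ σ ∈ inert 2, c σ = 0) :
    c = 0 := by
  obtain ⟨⟨hZ, ⟨E, hE, hlev⟩, hunr, -, -⟩, hloc⟩ := mem_selW.mp hc
  have hmul : ∀ g h, c (g * h) = c g + c h := fun g h => by rw [hZ g h, hρ]
  let f : Gal →* Multiplicative M :=
    MonoidHom.mk' (fun g => Multiplicative.ofAdd (c g)) fun g h => by rw [hmul]; rfl
  have hf1 : f = 1 := by
    refine Galois.monoidHom_eq_one_of_forall_inertia f
      ⟨E, hE, fun σ hσ => MonoidHom.mem_ker.mpr (congrArg Multiplicative.ofAdd (hlev σ hσ))⟩ ?_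
    intro q hq A hA σ hσ
    refine congrArg Multiplicative.ofAdd (?_ : c σ = 0)
    by_cases hqS : q ∈ badSet p
    · have := Fact.mk hq
      obtain ⟨g, hg⟩ := Galois.exists_smul_eq (plc_liesOverPrime q) hA hq
      rw [← hg, Galois.mem_inertia_smul_iff] at hσ
      have hconj : c σ = c (g⁻¹ * σ * g) := by
        have hone : c 1 = 0 := by
          have h11 := hmul 1 1
          rw [mul_one] at h11
          exact left_eq_add.mp h11
        have hinv : c g⁻¹ + c g = 0 := by rw [← hmul, inv_mul_cancel, hone]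
        rw [hmul, hmul, add_right_comm, hinv, zero_add]
      rw [hconj]
      rcases Finset.mem_insert.mp hqS with rfl | hqp
      · exact h2 _ hσ
      · obtain rfl := Finset.mem_singleton.mp hqp
        obtain ⟨m, hm⟩ := hloc ()
        rw [hm _ hσ, hρ, sub_self]
    · exact hunr q hq hqS A hA σ hσ
  funext g
  exact congrArg Multiplicative.toAdd (DFunLike.congr_fun hf1 g)

/-- A class on a module of order two is the Kummer class of `1` or `-1`. -/
theorem exists_sign_root (hρ : ∀ g, ∀ x : M, ρ g x = x) (C : AddSubgroup M) {c : Gal → M}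
    (hc : c ∈ selW (inertOne p) ρ (condAt 2 (badSet p) ρ C)) (φ : M →+ Additive Qbˣ)
    (hφ : ∀ x, chVal φ x = 1 ∨ chVal φ x = -1) :
    ∃ γ : Qb, γ ≠ 0 ∧ (γ ^ 2 = 1 ∨ γ ^ 2 = -1) ∧ ∀ g, g γ = chVal φ (c g) * γ := by
  obtain ⟨⟨hZ, ⟨E, hE, hlev⟩, hunr, -, hunit⟩, hloc⟩ := mem_selW.mp hc
  have hfix : ∀ (g : Gal) x, g (chVal φ x) = chVal φ x := fun g x => by
    rcases hφ x with h | h <;> simp [h]
  have hsq : ∀ x, chVal φ x ^ 2 = 1 := fun x => by
    rcases hφ x with h | h <;> simp [h]
  obtain ⟨β, hβ0, hβ⟩ := Fermat.Agent.TW.exists_eq_div_of_levelConstant_cocycle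
    (fun g => chVal φ (c g)) (fun g => by rcases hφ (c g) with h | h <;> simp [h])
    (fun g h => by
      show chVal φ (c (g * h)) = g (chVal φ (c h)) * chVal φ (c g)
      rw [hZ g h, hρ, chVal_add, hfix, mul_comm]) E
    (fun g s hs => by
      show chVal φ (c (g * s)) = chVal φ (c g)
      rw [hZ g s, hlev s hs, map_zero, add_zero])
  have hβ' : ∀ g, g β = chVal φ (c g) * β := fun g => by rw [hβ g, div_mul_cancel₀ _ hβ0]
  obtain ⟨a, ha⟩ : β ^ 2 ∈ (⊥ : IntermediateField ℚ Qb) := by
    rw [← InfiniteGalois.fixedField_bot, IntermediateField.mem_fixedField_iff]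
    intro g _
    rw [map_pow, hβ', mul_pow, hsq, one_mul]
  have ha' : β ^ 2 = (a : Qb) := ha.symm
  have ha0 : a ≠ 0 := fun h0 => pow_ne_zero 2 hβ0 (by rw [ha', h0, Rat.cast_zero])
  have hval : ∀ q : ℕ, q.Prime → (2 : ℤ) ∣ padicValRat q a := by
    intro q hq
    have := Fact.mk hq
    obtain ⟨m, hm⟩ : ∃ m : ℤ, VEQ q m β := by
      by_cases hq2 : q = 2
      · subst hq2
        obtain ⟨z, ⟨n, -, hzv⟩, hz⟩ := hunit φ
        have hU : InU 2 (β / z) := fun σ hσ => by
          rw [map_div₀, hβ', hz σ hσ]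
          exact mul_div_mul_left _ _ (by rcases hφ (c σ) with h | h <;> simp [h])
        obtain ⟨m, hm⟩ := hU.exists_int (div_ne_zero hβ0 hzv.ne_zero)
        refine ⟨m, ?_⟩
        have := hm.mul hzv
        rwa [add_zero, div_mul_cancel₀ _ hzv.ne_zero] at this
      · refine InU.exists_int (fun σ hσ => ?_) hβ0
        have hcσ : c σ = 0 := by
          by_cases hqS : q ∈ badSet p
          · rcases Finset.mem_insert.mp hqS with h | hqp
            · exact absurd h hq2
            · obtain rfl := Finset.mem_singleton.mp hqp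
              obtain ⟨m, hm⟩ := hloc ()
              rw [hm σ hσ, hρ, sub_self]
          · exact hunr q hq hqS (plc q) (plc_liesOverPrime q) σ hσ
        rw [hβ', hcσ, chVal_zero, one_mul]
    have h1 := hm.pow 2
    rw [ha'] at h1
    have h2 := h1.unique (veq_ratCast ha0)
    exact ⟨m, by exact_mod_cast h2.symm⟩
  obtain ⟨b, hb⟩ := exists_sq_or_neg_sq ha0 hval
  have hb0 : (b : Qb) ≠ 0 := Rat.cast_ne_zero.mpr fun h0 => ha0 (by
    rcases hb with h | h <;> simp [h, h0])
  refine ⟨β / (b : Qb), div_ne_zero hβ0 hb0, ?_, fun g => ?_⟩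
  · rcases hb with h | h
    · left
      rw [div_pow, ha', h, Rat.cast_pow, div_self (pow_ne_zero _ hb0)]
    · right
      rw [div_pow, ha', h, Rat.cast_neg, Rat.cast_pow, neg_div, div_self (pow_ne_zero _ hb0)]
  · rw [map_div₀, map_ratCast, hβ', mul_div_assoc]

/-- At most one non-trivial class on a module of order two. -/
theorem card_selW_le_two (hρ : ∀ g, ∀ x : M, ρ g x = x) (hM : Nat.card M = 2) (C : AddSubgroup M) :
    Nat.card (selW (inertOne p) ρ (condAt 2 (badSet p) ρ C)) ≠ 0 ∧
      Nat.card (selW (inertOne p) ρ (condAt 2 (badSet p) ρ C)) ≤ 2 := by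
  classical
  have hcyc : IsAddCyclic M := isAddCyclic_of_prime_card (p := 2) hM
  let e : ZMod 2 ≃+ M :=
    (ZMod.ringEquivCongr hM.symm).toAddEquiv.trans (zmodAddCyclicAddEquiv hcyc)
  let φ : M →+ Additive Qbˣ :=
    AddMonoidHom.mk' (fun x => Additive.ofMul ((-1 : Qbˣ) ^ (e.symm x).val)) fun x y => by
      rw [← ofMul_mul, ← pow_add, map_add, ZMod.val_add]
      exact congrArg Additive.ofMul (pow_eq_pow_mod _ (neg_one_sq)).symm
  have hval : ∀ x, chVal φ x = (-1 : Qb) ^ (e.symm x).val := fun x => by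
    simp [chVal, φ]
  have hφ : ∀ x, chVal φ x = 1 ∨ chVal φ x = -1 := fun x => by
    rw [hval]; exact neg_one_pow_eq_or Qb _
  have hinj : ∀ x y, chVal φ x = chVal φ y → x = y := by
    intro x y h
    rw [hval, hval] at h
    apply e.symm.injective
    revert h
    generalize e.symm x = u
    generalize e.symm y = v
    have h1 : (1 : Qb) ≠ -1 := by norm_num
    fin_cases u <;> fin_cases v <;> first | (intro _; rfl) | simp [ZMod.val, h1, Ne.symm h1]
  set Sel := selW (inertOne p) ρ (condAt 2 (badSet p) ρ C)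
  -- a non-zero class has square root of -1
  have hne : ∀ c ∈ Sel, c ≠ 0 → ∃ γ : Qb, γ ^ 2 = -1 ∧ ∀ g, g γ = chVal φ (c g) * γ := by
    intro c hc hc0
    obtain ⟨γ, hγ0, hγ | hγ, hg⟩ := exists_sign_root hρ C hc φ hφ
    · exfalso
      refine hc0 (funext fun g => hinj _ _ ?_)
      have : g γ = γ := by rcases sq_eq_one_iff.mp hγ with h | h <;> simp [h]
      rw [Pi.zero_apply, chVal_zero]
      exact (mul_eq_right₀ hγ0).mp ((hg g).symm.trans this)
    · exact ⟨γ, hγ, hg⟩
  have huniq : ∀ c ∈ Sel, ∀ c' ∈ Sel, c ≠ 0 → c' ≠ 0 → c = c' := by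
    intro c hc c' hc' h h'
    obtain ⟨γ, hγ, hg⟩ := hne c hc h
    obtain ⟨γ', hγ', hg'⟩ := hne c' hc' h'
    have hγ0 : γ ≠ 0 := fun h0 => by rw [h0] at hγ; norm_num at hγ
    refine funext fun g => hinj _ _ ?_
    have hgg : g γ = chVal φ (c' g) * γ := by
      rcases sq_eq_sq_iff_eq_or_eq_neg.mp (hγ.trans hγ'.symm) with e' | e'
      · rw [e', hg']
      · rw [e', map_neg, hg', mul_neg]
    exact mul_right_cancel₀ hγ0 ((hg g).symm.trans hgg)
  obtain ⟨c₀, hsub⟩ : ∃ c₀ : Gal → M, (Sel : Set (Gal → M)) ⊆ {0, c₀} := by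
    by_cases h : ∃ c ∈ Sel, c ≠ 0
    · obtain ⟨c₀, hc₀, h0⟩ := h
      refine ⟨c₀, fun c hc => ?_⟩
      by_cases hc0 : c = 0
      · exact Or.inl hc0
      · exact Or.inr (huniq c hc c₀ hc₀ hc0 h0)
    · push Not at h
      exact ⟨0, fun c hc => Or.inl (h c hc)⟩
  have : Finite Sel := ((Set.toFinite _).subset hsub).to_subtype
  refine ⟨Nat.card_pos.ne', ?_⟩
  calc Nat.card Sel = (Sel : Set (Gal → M)).ncard := rfl
    _ ≤ ({0, c₀} : Set (Gal → M)).ncard := Set.ncard_le_ncard hsub (Set.toFinite _)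
    _ ≤ 2 := (Set.ncard_insert_le _ _).trans (by rw [Set.ncard_singleton])

theorem index_comap_mul_index_map (X C : AddSubgroup M) [Finite M] :
    (C.comap X.subtype).index * (C.map (QuotientAddGroup.mk' X)).index = C.index := by
  have h1 : Nat.card ↥(C ⊓ X) * Nat.card ↥(C.map (QuotientAddGroup.mk' X)) = Nat.card C := by
    simpa using card_inf_ker_mul_card_map (QuotientAddGroup.mk' X) C
  have h2 : Nat.card ↥(C.comap X.subtype) = Nat.card ↥(C ⊓ X) := by
    rw [show C.comap X.subtype = C.addSubgroupOf X from rfl, ← AddSubgroup.inf_addSubgroupOf_right]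
    exact Nat.card_congr (AddSubgroup.addSubgroupOfEquivOfLe inf_le_right).toEquiv
  have hM := C.card_mul_index
  rw [← h1, ← h2] at hM
  have hX := (C.comap X.subtype).card_mul_index
  have hY := (C.map (QuotientAddGroup.mk' X)).card_mul_index
  have hXY : Nat.card X * Nat.card (M ⧸ X) = Nat.card M := by
    rw [mul_comm]; exact X.card_eq_card_quotient_mul_card_addSubgroup.symm
  refine Nat.eq_of_mul_eq_mul_left
    (Nat.mul_pos (Nat.card_pos (α := C.comap X.subtype))
      (Nat.card_pos (α := C.map (QuotientAddGroup.mk' X)))) ?_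
  rw [hM, ← hXY, ← hX, ← hY]
  ring

/-- The inequality for a residually unipotent module with a connected part. -/
theorem boundW_condAt {F : Gal} (hF : ∀ σ ∈ inert p, F⁻¹ * σ * F ∈ inert p) :
    ∀ (n : ℕ) {M : Type} [AddCommGroup M] [Finite M] (ρ : Gal →* AddMonoid.End M)
      (C : AddSubgroup M), Nat.card M = n → Eig (1 : Gal →* (ZMod 2)ˣ) ρ →
      B1 ρ ≤ condAt 2 (badSet p) ρ C →
      BoundW (inertOne p) (fun _ => F) ρ (condAt 2 (badSet p) ρ C) C.index := by
  intro n
  induction n using Nat.strong_induction_on with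
  | _ n ih =>
    intro M _ _ ρ C hn heig hB1
    rcases subsingleton_or_nontrivial M with hM | hM
    · rw [show C = ⊤ from Subsingleton.elim _ _, AddSubgroup.index_top]
      exact boundW_of_subsingleton _ _ _ _
    obtain ⟨X, hX, hcard, hdich⟩ := exists_piece (1 : Gal →* (ZMod 2)ˣ) ρ heig
    have htriv : ∀ g, ∀ x ∈ X, ρ g x = x := by
      rcases hdich with h | h
      · exact h
      · intro g x hx
        rw [h g x hx, MonoidHom.one_apply, Units.val_one, ZMod.val_one, one_nsmul]
    have hρX : ∀ g, ∀ x : X, subRep ρ X hX g x = x := fun g x => Subtype.ext (htriv g x.1 x.2)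
    have hmap : ∀ c ∈ condAt 2 (badSet p) ρ C, (fun σ => QuotientAddGroup.mk' X (c σ)) ∈
        condAt 2 (badSet p) (quotRep ρ X hX) (C.map (QuotientAddGroup.mk' X)) :=
      fun c hc => condAt_map (QuotientAddGroup.mk' X) (fun _ _ => rfl) C hc
    refine boundW_step (inertOne p) (fun _ => F) (fun _ => hF) ρ X hX (condAt_le_Z1 C) hB1 hmap
      (fun d hd h => condAt_comap (ρ := subRep ρ X hX) X.subtype Subtype.val_injective C hd h)
      (index_comap_mul_index_map X C).ge ?_ ?_
    · have hfix : fix (subRep ρ X hX) ⊤ = ⊤ := eq_top_iff.mpr fun x _ g _ => hρX g x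
      rw [hfix, AddSubgroup.card_top, hcard, B1_eq_bot_of_trivial hρX,
        AddSubgroup.relIndex_bot_left]
      have : Fact (Nat.card X).Prime := ⟨hcard ▸ Nat.prime_two⟩
      rcases (C.comap X.subtype).eq_bot_or_eq_top_of_prime_card with hC | hC
      · have hsel : selW (inertOne p) (subRep ρ X hX)
            (condAt 2 (badSet p) (subRep ρ X hX) (C.comap X.subtype)) = ⊥ := by
          rw [AddSubgroup.eq_bot_iff_forall]
          intro c hc
          refine eq_zero_of_trivial hρX _ hc fun σ hσ => ?_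
          have := (mem_selW.mp hc).1.2.2.2.1 σ hσ
          rwa [hC, AddSubgroup.mem_bot] at this
        rw [hsel, AddSubgroup.card_bot, hC, AddSubgroup.index_bot, hcard]
        exact ⟨one_ne_zero, le_of_eq (one_mul 2)⟩
      · obtain ⟨h0, h2⟩ := card_selW_le_two hρX hcard (C.comap X.subtype) (p := p)
        exact ⟨h0, by rw [hC, AddSubgroup.index_top, mul_one]; rw [hC] at h2; exact h2⟩
    · have hlt : Nat.card (M ⧸ X) < n := by
        rw [← hn, X.card_eq_card_quotient_mul_card_addSubgroup, hcard]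
        have := Nat.card_pos (α := M ⧸ X)
        omega
      refine ih _ hlt (quotRep ρ X hX) _ rfl (eig_quotRep heig X hX) ?_
      rintro _ ⟨y, rfl⟩
      obtain ⟨m, rfl⟩ := QuotientAddGroup.mk'_surjective X y
      exact hmap _ (hB1 ⟨m, rfl⟩)

end Fermat.Agent.Mazur.Two
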